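/-
GATE-E / RISK-4 R4-H seam (S1) = PNEW-POINT-α (helper35; board 7771 of helper80).

**The `p`-new lattice supports the residual eigensystem of `W`.**

The proof of S41 (`GM/End/Skeleton.levelRaise_of_leaves`) builds the maximal ideal
`𝔪A := 𝔪.comap (thetaOf hf)` of the free Hecke ring and proves, before calling the endgame,

  `hALG : ∀ s : GoodHecke N q, (∀ z, β z = 0 → actL (N * q) (goodIncl N q s) z = 0) →
      goodIncl N q s ∈ 𝔪A`,

i.e. `Ann (ker β) ⊆ 𝔪A`: the `q`-new lattice `ker β` carries the eigensystem of `f` modulo `𝔪`.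
This file exports that statement:

* `ann_ker_le_of_leaves` : `levelRaise_of_leaves` with the SAME binders minus `hUq`; conclusion
  `hALG ∧ C p ∈ 𝔪A ∧ hcongA` (the proof is the one of the skeleton up to `have hALG`);
* `ann_ker_betaP_le_of_remaining_leaves` : the same at `α := alphaP ℤ N q`, `β := betaP ℤ hqN`
  from the remaining leaves (twin of `GM/End/Plug.S41_of_remaining_leaves`, minus (B5));
* `betaP_eq_zero_iff_mem_lamNew` : `ker (betaP ℤ hqN) = LamNew hqN` (GB/B10/L/ThetaNew);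
* `ann_lamNew_le` : level raising at ANY prime `q ∤ N` (`q = p` allowed), `E`-vocabulary,
  conclusion on `LamNew hqN`;
* `ann_lamNew_le_of_model` : the case `q := p` in the `W`-vocabulary, with the level-raising
  congruence in the form `a_p(f)² ≡ 1 (mod 𝔪)` (binder `hap`, supplied by DELIGNE-MODP).
-/
import Fermat.Agent.S41
import Fermat.Agent.GB.B10.L.ThetaNew

set_option autoImplicit false

open scoped MatrixGroups
open CongruenceSubgroup ModularCurve ModularCurve.Period CuspForm ModularFormClass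

namespace Fermat.Agent.GE9.PNew.Point.AnnNew

open Fermat.Agent.GJ.J2.Lat Fermat.Agent.GM.Alg Fermat.Agent.GM.End Fermat.Agent.GM.B
open Fermat.Agent.GM.Ihara Fermat.Agent.S16_helper49 Fermat.Agent.GM.Amalgam
open Fermat.Agent.GB.B10.L.ThetaNew

/-! ### (i) the skeleton -/

section Skeleton

variable {N q p : ℕ} [NeZero N] [NeZero (N * q)]

/-- **`Ann (ker β) ⊆ 𝔪A` from the leaves of level raising** (`levelRaise_of_leaves` minus `hUq`):
for `𝔪A := 𝔪.comap (thetaOf hf)`, every good Hecke operator killing `ker β` lies in `𝔪A`; moreover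
`p ∈ 𝔪A` and `X_ℓ − a ℓ ∈ 𝔪A` for the selected primes. -/
theorem ann_ker_le_of_leaves (hq : q.Prime) (hp : p.Prime)
    (α : Lam N × Lam N →+ Lam (N * q)) (β : Lam (N * q) →+ Lam N × Lam N)
    -- (B2)
    (hβα : ∀ x y : Lam N, β (α (x, y)) =
      (((q : ℤ) + 1) • x + latT N ⟨q, hq⟩ y, latT N ⟨q, hq⟩ x + ((q : ℤ) + 1) • y))
    -- (B4)
    (hαeq : ∀ l : Nat.Primes, ¬ (l : ℕ) ∣ N * q → ∀ x y : Lam N,
      α (latT N l x, latT N l y) = latT (N * q) l (α (x, y)))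
    (hβeq : ∀ l : Nat.Primes, ¬ (l : ℕ) ∣ N * q → ∀ z : Lam (N * q),
      β (latT (N * q) l z) = (latT N l (β z).1, latT N l (β z).2))
    -- (C) Ihara mod `p` for one good prime
    (l0 : Nat.Primes) (hl0 : ¬ (l0 : ℕ) ∣ N * q)
    (hIhara : ∀ x y : Lam N, (∃ w : Lam (N * q), α (x, y) = (p : ℤ) • w) →
      ∃ z1 z2 : Lam N, latT N l0 x - (((l0 : ℕ) : ℤ) + 1) • x = (p : ℤ) • z1 ∧
        latT N l0 y - (((l0 : ℕ) : ℤ) + 1) • y = (p : ℤ) • z2)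
    -- (D) pairings mod `p`
    (B : Lam N →+ Lam N →+ ZMod p) (B2 : Lam (N * q) →+ Lam (N * q) →+ ZMod p)
    (hB : ∀ x : Lam N, (∀ y, B x y = 0) → ∃ z, x = (p : ℤ) • z)
    (hB2 : ∀ w : Lam (N * q), (∀ z, B2 w z = 0) → ∃ z, w = (p : ℤ) • z)
    (hadj : ∀ (x y : Lam N) (z : Lam (N * q)), B2 (α (x, y)) z = B x (β z).1 + B y (β z).2)
    (hTadj : ∀ x y : Lam N, B (latT N l0 x) y = B x (latT N l0 y))
    -- the eigenform of level `N`
    {f : CuspForm (Gamma0 N) 2} (hf : f.IsNormalizedEigenform)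
    (𝔪 : Ideal (integralClosure ℤ ℂ)) (hmax : 𝔪.IsMaximal)
    (hpm : (p : integralClosure ℤ ℂ) ∈ 𝔪) (a : ℕ → ℤ) (good : ℕ → Prop)
    (hcong : ∀ ℓ : ℕ, ℓ.Prime → good ℓ → ¬ ℓ ∣ N → ℓ ≠ p →
      ∃ c : integralClosure ℤ ℂ, (c : ℂ) = qCoeff f ℓ ∧
        c - ((a ℓ : ℤ) : integralClosure ℤ ℂ) ∈ 𝔪)
    (hLR : ∃ c : integralClosure ℤ ℂ, (c : ℂ) = qCoeff f q ∧
      c ^ 2 - ((q : integralClosure ℤ ℂ) + 1) ^ 2 ∈ 𝔪)
    -- (A) non-Eisenstein at `l0`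
    (hA : ∃ c : integralClosure ℤ ℂ, (c : ℂ) = qCoeff f l0 ∧
      c - (((l0 : ℕ) : integralClosure ℤ ℂ) + 1) ∉ 𝔪) :
    (∀ s : GoodHecke N q,
      (∀ z : Lam (N * q), β z = 0 → actL (N * q) (goodIncl N q s) z = 0) →
        goodIncl N q s ∈ 𝔪.comap (thetaOf hf)) ∧
    (MvPolynomial.C (p : ℤ) : HeckeAlg) ∈ 𝔪.comap (thetaOf hf) ∧
    (∀ (ℓ : ℕ) (hℓ : ℓ.Prime), good ℓ → ¬ ℓ ∣ N → ℓ ≠ p →
      heckeGen ⟨ℓ, hℓ⟩ - MvPolynomial.C (a ℓ) ∈ 𝔪.comap (thetaOf hf)) := by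
  classical
  have hpF : Fact p.Prime := ⟨hp⟩
  -- rings and module structures
  let ψ : GoodHecke N q →+* HeckeAlg := goodIncl N q
  let iA1 : Module HeckeAlg (Lam N) := lamModule N
  let iT1 : Module (GoodHecke N q) (Lam N) := Module.compHom (Lam N) ψ
  let iA2 : Module HeckeAlg (Lam (N * q)) := lamModule (N * q)
  let iT2 : Module (GoodHecke N q) (Lam (N * q)) := Module.compHom (Lam (N * q)) ψ
  have hsm1 : ∀ (s : GoodHecke N q) (x : Lam N), s • x = actL N (ψ s) x := fun _ _ => rfl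
  have hsm2 : ∀ (s : GoodHecke N q) (z : Lam (N * q)), s • z = actL (N * q) (ψ s) z :=
    fun _ _ => rfl
  have hsmA : ∀ (P : HeckeAlg) (x : Lam N), P • x = actL N P x := fun _ _ => rfl
  have hX1 : ∀ (l : {l : Nat.Primes // ¬ (l : ℕ) ∣ N * q}) (x : Lam N),
      (MvPolynomial.X l : GoodHecke N q) • x = latT N l.1 x := by
    intro l x
    rw [hsm1]
    show actL N (goodIncl N q (MvPolynomial.X l)) x = _
    rw [goodIncl_X, actL_heckeGen]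
  have hX2 : ∀ (l : {l : Nat.Primes // ¬ (l : ℕ) ∣ N * q}) (z : Lam (N * q)),
      (MvPolynomial.X l : GoodHecke N q) • z = latT (N * q) l.1 z := by
    intro l z
    rw [hsm2]
    show actL (N * q) (goodIncl N q (MvPolynomial.X l)) z = _
    rw [goodIncl_X, actL_heckeGen]
  have hC1 : ∀ (n : ℤ) (x : Lam N), (MvPolynomial.C n : GoodHecke N q) • x = n • x := by
    intro n x
    rw [hsm1]
    show actL N (goodIncl N q (MvPolynomial.C n)) x = _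
    rw [goodIncl_C, actL_C]
  -- linear versions of `α`, `β`
  let αT : Lam N × Lam N →ₗ[GoodHecke N q] Lam (N * q) :=
    { toFun := α
      map_add' := map_add α
      map_smul' := by
        intro s v
        refine map_smul_of_comm_X α ?_ s v
        rintro l ⟨x, y⟩
        rw [Prod.smul_mk, hX1, hX1, hX2]
        exact hαeq l.1 l.2 x y }
  let βT : Lam (N * q) →ₗ[GoodHecke N q] Lam N × Lam N :=
    { toFun := β
      map_add' := map_add β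
      map_smul' := by
        intro s v
        refine map_smul_of_comm_X β ?_ s v
        intro l z
        rw [hX2, hβeq l.1 l.2 z]
        refine Prod.ext ?_ ?_
        · rw [Prod.smul_fst, hX1]
        · rw [Prod.smul_snd, hX1] }
  have hαT : ∀ v, αT v = α v := fun _ => rfl
  have hβT : ∀ z, βT z = β z := fun _ => rfl
  -- the data of ALG
  set lq : Nat.Primes := ⟨q, hq⟩ with hlq
  let t : HeckeAlg := heckeGen lq
  have hβα' : ∀ x y : Lam N, βT (αT (x, y)) =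
      (((q : HeckeAlg) + 1) • x + t • y, t • x + ((q : HeckeAlg) + 1) • y) := by
    intro x y
    rw [hαT, hβT, hβα, hsmA, hsmA, hsmA, hsmA, actL_natCast_add_one, actL_natCast_add_one,
      actL_heckeGen, actL_heckeGen]
  set 𝔪A : Ideal HeckeAlg := 𝔪.comap (thetaOf hf) with h𝔪A
  obtain ⟨hmaxA, hpA, hcongA, hdetA, -, -⟩ :=
    supply_of_eigenform (M := N) (p := p) (q := q) hf 𝔪 hmax hpm a good hcong hq hLR
  have hpA' : ((p : ℕ) : HeckeAlg) ∈ 𝔪A := by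
    have : ((p : ℕ) : HeckeAlg) = MvPolynomial.C (p : ℤ) := by simp
    rw [this]
    exact hpA
  have hdetA' : ((q : HeckeAlg) + 1) ^ 2 - t ^ 2 ∈ 𝔪A := by
    have h1 : ((q : HeckeAlg) + 1) = MvPolynomial.C ((q : ℤ) + 1) := by simp
    rw [h1, ← neg_sub, neg_mem_iff]
    exact hdetA
  have hsupp : ∃ x : Lam N, x ∉ 𝔪A • (⊤ : Submodule HeckeAlg (Lam N)) :=
    exists_notMem_smul_top hf 𝔪 hmax.ne_top
  -- the non-Eisenstein operator
  let l0' : {l : Nat.Primes // ¬ (l : ℕ) ∣ N * q} := ⟨l0, hl0⟩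
  let η : GoodHecke N q := MvPolynomial.X l0' - MvPolynomial.C (((l0 : ℕ) : ℤ) + 1)
  have hηψ : ψ η = heckeGen l0 - MvPolynomial.C (((l0 : ℕ) : ℤ) + 1) := by
    show goodIncl N q (MvPolynomial.X l0' - MvPolynomial.C (((l0 : ℕ) : ℤ) + 1)) = _
    rw [map_sub, goodIncl_X, goodIncl_C]
  have hη : ψ η ∉ 𝔪A := by
    obtain ⟨c, hc, hcm⟩ := hA
    rw [hηψ]
    refine heckeGen_sub_C_notMem_comap hf 𝔪 l0 _ hc ?_
    push_cast
    exact hcm
  have hηsm : ∀ x : Lam N, η • x = latT N l0 x - (((l0 : ℕ) : ℤ) + 1) • x := by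
    intro x
    show (MvPolynomial.X l0' - MvPolynomial.C (((l0 : ℕ) : ℤ) + 1) : GoodHecke N q) • x = _
    rw [sub_smul, hX1, hC1]
  have hIhara' : ∀ x : Lam N × Lam N, (∃ y, αT x = (p : ℤ) • y) →
      ∃ z, η • x = (p : ℤ) • z := by
    rintro ⟨x, y⟩ ⟨w, hw⟩
    obtain ⟨z1, z2, h1, h2⟩ := hIhara x y ⟨w, hw⟩
    refine ⟨(z1, z2), Prod.ext ?_ ?_⟩
    · rw [Prod.smul_fst, Prod.smul_fst, hηsm]; exact h1
    · rw [Prod.smul_snd, Prod.smul_snd, hηsm]; exact h2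
  -- the dual Ihara statement from the pairings
  have hadj' : ∀ (x : Lam N × Lam N) (z : Lam (N * q)),
      B2 (αT x) z = prodPairing B x (βT z) := by
    rintro ⟨x, y⟩ z
    rw [hαT, hβT, hadj, prodPairing_apply]
  have hηadj : ∀ x y : Lam N, B (η • x) y = B x (η • y) := by
    intro x y
    rw [hηsm, hηsm, map_sub, map_sub, AddMonoidHom.sub_apply, map_zsmul, map_zsmul,
      AddMonoidHom.zsmul_apply, hTadj]
  have hηadj' : ∀ x y : Lam N × Lam N, prodPairing B (η • x) y = prodPairing B x (η • y) := by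
    intro x y
    simp only [prodPairing_apply, Prod.smul_fst, Prod.smul_snd, hηadj]
  have hDual : ∀ y : Lam N × Lam N, ∃ (z : Lam (N * q)) (w : Lam N × Lam N),
      η • y = βT z + (p : ℤ) • w :=
    dual_ihara_of_pairing p αT βT (prodPairing B) B2 (prodPairing_nondeg p B hB) hB2 hadj' η
      hηadj' hIhara'
  -- ALG
  have hALG : ∀ s : GoodHecke N q,
      (∀ z : Lam (N * q), β z = 0 → actL (N * q) (goodIncl N q s) z = 0) →
        goodIncl N q s ∈ 𝔪A :=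
    fun s hs =>
      ann_ker_le_of_levelRaise_hom ψ (fun _ _ => rfl) p q hp t αT βT hβα' 𝔪A hmaxA hpA' hdetA'
        hsupp η η hη hη hIhara' hDual s hs
  exact ⟨hALG, hpA, hcongA⟩

end Skeleton

/-! ### (ii) the plug at `α := alphaP`, `β := betaP` -/

section Plug

variable {N q : ℕ} [hqF : Fact q.Prime] [NeZero N]

open WeierstrassCurve WeierstrassCurve.Affine WeierstrassCurve.Affine.Point in
/-- **`Ann (ker betaP) ⊆ 𝔪A` from the remaining leaves** (twin of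
`GM/End/Plug.S41_of_remaining_leaves` without (B5)). -/
theorem ann_ker_betaP_le_of_remaining_leaves [NeZero (N * q)]
    (E : WeierstrassCurve ℚ) [E.IsElliptic] {W : WeierstrassCurve ℤ}
    (hW : W.IsIntegralModelOf E) {p : ℕ} (hp : p.Prime) (hp2 : p ≠ 2) (hqN : ¬ q ∣ N)
    (hirr : GaloisRepIsIrreducible (K := AlgebraicClosure ℚ) ℚ E p)
    (f : CuspForm (CongruenceSubgroup.Gamma0 N) 2) (𝔪 : Ideal (integralClosure ℤ ℂ))
    (hf : f.IsNormalizedEigenform) (hmax : 𝔪.IsMaximal) (hpm : (p : integralClosure ℤ ℂ) ∈ 𝔪)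
    (hcong : ∀ ℓ : ℕ, ℓ.Prime → W.IsGoodPrimeFor ℓ → ¬ ℓ ∣ N → ℓ ≠ p →
      ∃ a : integralClosure ℤ ℂ, (a : ℂ) = ModularFormClass.qCoeff f ℓ ∧
        a - ((W.apOfModel ℓ : ℤ) : integralClosure ℤ ℂ) ∈ 𝔪)
    (hLR : ∃ a : integralClosure ℤ ℂ, (a : ℂ) = ModularFormClass.qCoeff f q ∧
      a ^ 2 - ((q : integralClosure ℤ ℂ) + 1) ^ 2 ∈ 𝔪)
    -- (C2)
    (hcsp : CSPStmt N q (Multiplicative (ZMod p)))
    -- (B4)
    (hαeq : ∀ l : Nat.Primes, ¬ (l : ℕ) ∣ N * q → ∀ x y : Lam N,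
      alphaP ℤ N q (latT N l x, latT N l y) = latT (N * q) l (alphaP ℤ N q (x, y)))
    (hβeq : ∀ l : Nat.Primes, ¬ (l : ℕ) ∣ N * q → ∀ z : Lam (N * q),
      betaP ℤ hqN (latT (N * q) l z) =
        (latT N l (betaP ℤ hqN z).1, latT N l (betaP ℤ hqN z).2))
    -- (D)
    (hD : ∃ (B : Lam N →+ Lam N →+ ZMod p) (B2 : Lam (N * q) →+ Lam (N * q) →+ ZMod p),
      (∀ x : Lam N, (∀ y, B x y = 0) → ∃ z, x = (p : ℤ) • z) ∧
      (∀ w : Lam (N * q), (∀ z, B2 w z = 0) → ∃ z, w = (p : ℤ) • z) ∧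
      (∀ (x y : Lam N) (z : Lam (N * q)),
        B2 (alphaP ℤ N q (x, y)) z = B x (betaP ℤ hqN z).1 + B y (betaP ℤ hqN z).2) ∧
      (∀ l : Nat.Primes, ¬ (l : ℕ) ∣ N * q → ∀ x y : Lam N,
        B (latT N l x) y = B x (latT N l y))) :
    (∀ s : GoodHecke N q,
      (∀ z : Lam (N * q), betaP ℤ hqN z = 0 → actL (N * q) (goodIncl N q s) z = 0) →
        goodIncl N q s ∈ 𝔪.comap (thetaOf hf)) ∧
    (MvPolynomial.C (p : ℤ) : HeckeAlg) ∈ 𝔪.comap (thetaOf hf) ∧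
    (∀ (ℓ : ℕ) (hℓ : ℓ.Prime), W.IsGoodPrimeFor ℓ → ¬ ℓ ∣ N → ℓ ≠ p →
      heckeGen ⟨ℓ, hℓ⟩ - MvPolynomial.C (W.apOfModel ℓ) ∈ 𝔪.comap (thetaOf hf)) := by
  classical
  have hN : 0 < N := Nat.pos_of_ne_zero (NeZero.ne N)
  obtain ⟨B, B2, hB, hB2, hadj, hTadj⟩ := hD
  -- (A): the non-Eisenstein prime
  obtain ⟨ℓ0, hℓ0, hℓ0q, -, -, hℓ0N, c, hc, -, hcA⟩ :=
    Fermat.Agent.GM.NonEis.exists_good_prime_eigen_notMem E hW hp hp2 hN hirr f 𝔪 hmax hpm hcong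
      {q}
  have hℓ0q' : ℓ0 ≠ q := fun h => hℓ0q (by rw [h]; exact Finset.mem_singleton_self q)
  have hℓ0Nq : ¬ ℓ0 ∣ N * q := by
    intro h
    rcases (Nat.Prime.dvd_mul hℓ0).1 h with h | h
    · exact hℓ0N h
    · exact hℓ0q' ((Nat.prime_dvd_prime_iff_eq hℓ0 hqF.out).1 h)
  let l0 : Nat.Primes := ⟨ℓ0, hℓ0⟩
  exact ann_ker_le_of_leaves (N := N) (q := q) (p := p) hqF.out hp (alphaP ℤ N q) (betaP ℤ hqN)
    (betaP_alphaP_latT hqN) hαeq hβeq l0 hℓ0Nq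
    (fun x y hxy => ihara_latT_of_csp hqN hp.ne_zero hcsp l0 hℓ0N x y hxy)
    B B2 hB hB2 hadj (hTadj l0 hℓ0Nq) hf 𝔪 hmax hpm (fun ℓ => W.apOfModel ℓ) W.IsGoodPrimeFor
    hcong hLR ⟨c, hc, hcA⟩

/-- the instance `NeZero (N * q)` (local). -/
local instance neZero_mul_annNew : NeZero (N * q) :=
  ⟨Nat.mul_ne_zero (NeZero.ne N) (Fact.out : q.Prime).ne_zero⟩

/-- **`ker (betaP ℤ hqN) = LamNew hqN`.** -/
theorem betaP_eq_zero_iff_mem_lamNew (hqN : ¬ q ∣ N) (z : Lam (N * q)) :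
    betaP ℤ hqN z = 0 ↔ z ∈ LamNew hqN := by
  rw [betaP_apply, Prod.mk_eq_zero, mem_lamNew]
  constructor
  · rintro ⟨h1, h2⟩
    refine ⟨?_, ?_⟩
    · have := congrArg (fun u : parabolicHoms ℤ (Gamma0 N) ℤ =>
        (u : Additive (Gamma0 N) →+ ℤ)) h1
      simpa using this
    · have := congrArg (fun u : parabolicHoms ℤ (Gamma0 N) ℤ =>
        (u : Additive (Gamma0 N) →+ ℤ)) h2
      simpa using this
  · rintro ⟨h1, h2⟩
    refine ⟨Subtype.ext ?_, Subtype.ext ?_⟩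
    · rw [coresP_coe]; exact h1
    · rw [coresDP_coe]; exact h2

open WeierstrassCurve WeierstrassCurve.Affine WeierstrassCurve.Affine.Point in
/-- **The `q`-new lattice supports the residual eigensystem** (level raising at ANY prime
`q ∤ N`, `q = p` allowed; hypotheses = frozen S41 minus `q' ≠ p`): every good Hecke operator
killing `LamNew hqN` lies in `𝔪A := 𝔪.comap (thetaOf hf)`; `p ∈ 𝔪A`; `X_ℓ − a_ℓ(W) ∈ 𝔪A`. -/
theorem ann_lamNew_le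
    (E : WeierstrassCurve ℚ) [E.IsElliptic] {W : WeierstrassCurve ℤ} (hW : W.IsIntegralModelOf E)
    {p : ℕ} (hp : p.Prime) (hp2 : p ≠ 2) (hqN : ¬ q ∣ N)
    (hirr : GaloisRepIsIrreducible (K := AlgebraicClosure ℚ) ℚ E p)
    (f : CuspForm (CongruenceSubgroup.Gamma0 N) 2) (𝔪 : Ideal (integralClosure ℤ ℂ))
    (hf : f.IsNormalizedEigenform) (hmax : 𝔪.IsMaximal) (hpm : (p : integralClosure ℤ ℂ) ∈ 𝔪)
    (hcong : ∀ ℓ : ℕ, ℓ.Prime → W.IsGoodPrimeFor ℓ → ¬ ℓ ∣ N → ℓ ≠ p →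
      ∃ a : integralClosure ℤ ℂ, (a : ℂ) = ModularFormClass.qCoeff f ℓ ∧
        a - ((W.apOfModel ℓ : ℤ) : integralClosure ℤ ℂ) ∈ 𝔪)
    (hLR : ∃ a : integralClosure ℤ ℂ, (a : ℂ) = ModularFormClass.qCoeff f q ∧
      a ^ 2 - ((q : integralClosure ℤ ℂ) + 1) ^ 2 ∈ 𝔪) :
    (∀ s : GoodHecke N q,
      (∀ z ∈ LamNew hqN, actL (N * q) (goodIncl N q s) z = 0) →
        goodIncl N q s ∈ 𝔪.comap (thetaOf hf)) ∧
    (MvPolynomial.C (p : ℤ) : HeckeAlg) ∈ 𝔪.comap (thetaOf hf) ∧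
    (∀ (ℓ : ℕ) (hℓ : ℓ.Prime), W.IsGoodPrimeFor ℓ → ¬ ℓ ∣ N → ℓ ≠ p →
      heckeGen ⟨ℓ, hℓ⟩ - MvPolynomial.C (W.apOfModel ℓ) ∈ 𝔪.comap (thetaOf hf)) := by
  have hN : 0 < N := Nat.pos_of_ne_zero (NeZero.ne N)
  obtain ⟨h1, h2, h3⟩ := ann_ker_betaP_le_of_remaining_leaves E hW hp hp2 hqN hirr f 𝔪 hf hmax hpm
    hcong hLR
    (Fermat.Agent.GM.CSP.Main.cspStmt hp hp2 hN hqN)
    (Fermat.Agent.GM.B5.alphaP_latT hqN)
    (Fermat.Agent.GM.B5.betaP_latT hqN)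
    (Fermat.Agent.GM.Theta.Outer.dPackage_full p hqN)
  exact ⟨fun s hs => h1 s (fun z hz => hs z ((betaP_eq_zero_iff_mem_lamNew hqN z).mp hz)), h2, h3⟩

end Plug

/-! ### (iii) the case `q := p`, `W`-vocabulary -/

section AtP

variable {p M : ℕ} [hpF : Fact p.Prime] [NeZero M]

/-- the instance `NeZero (M * p)` (local). -/
local instance neZero_mul_annNewP : NeZero (M * p) :=
  ⟨Nat.mul_ne_zero (NeZero.ne M) (Fact.out : p.Prime).ne_zero⟩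

/-- **(S1) PNEW-POINT-α.**  `W` with `Δ ≠ 0` and `ρ̄_{W,p}` irreducible, `p` odd, `p ∤ M`; `f` a
normalized eigenform of level `M` congruent to `W` modulo `𝔪 ∣ p` (the body of
`W.IsResiduallyModularOfLevel p M`) with `a_p(f)² ≡ 1 (mod 𝔪)`.  Then every good Hecke operator
(polynomial in the `T_ℓ`, `ℓ ∤ M p`) killing the `p`-new lattice `LamNew hpM ⊆ Λ_{M p}` lies in
`𝔪A := 𝔪.comap (thetaOf hf)`, a maximal ideal of the free Hecke ring containing `p` and the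
`X_ℓ − a_ℓ(W)` (`ℓ` good, `ℓ ∤ M`, `ℓ ≠ p`). -/
theorem ann_lamNew_le_of_model (W : WeierstrassCurve ℤ) (hΔ : W.Δ ≠ 0) (hp2 : p ≠ 2)
    (hpM : ¬ p ∣ M) (hirr : W.ModRepIsIrreducible p)
    (f : CuspForm (CongruenceSubgroup.Gamma0 M) 2) (𝔪 : Ideal (integralClosure ℤ ℂ))
    (hf : f.IsNormalizedEigenform) (hmax : 𝔪.IsMaximal) (hpm : (p : integralClosure ℤ ℂ) ∈ 𝔪)
    (hcong : ∀ ℓ : ℕ, ℓ.Prime → W.IsGoodPrimeFor ℓ → ¬ ℓ ∣ M → ℓ ≠ p →
      ∃ a : integralClosure ℤ ℂ, (a : ℂ) = ModularFormClass.qCoeff f ℓ ∧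
        a - ((W.apOfModel ℓ : ℤ) : integralClosure ℤ ℂ) ∈ 𝔪)
    (hap : ∃ a : integralClosure ℤ ℂ, (a : ℂ) = ModularFormClass.qCoeff f p ∧ a ^ 2 - 1 ∈ 𝔪) :
    (∀ s : GoodHecke M p,
      (∀ z ∈ LamNew hpM, actL (M * p) (goodIncl M p s) z = 0) →
        goodIncl M p s ∈ 𝔪.comap (thetaOf hf)) ∧
    (𝔪.comap (thetaOf hf)).IsMaximal ∧
    (MvPolynomial.C (p : ℤ) : HeckeAlg) ∈ 𝔪.comap (thetaOf hf) ∧
    (∀ (ℓ : ℕ) (hℓ : ℓ.Prime), W.IsGoodPrimeFor ℓ → ¬ ℓ ∣ M → ℓ ≠ p →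
      heckeGen ⟨ℓ, hℓ⟩ - MvPolynomial.C (W.apOfModel ℓ) ∈ 𝔪.comap (thetaOf hf)) := by
  have hp : p.Prime := hpF.out
  have hEΔ : (W.map (Int.castRingHom ℚ)).Δ ≠ 0 := by
    rw [WeierstrassCurve.map_Δ]
    simpa using hΔ
  have : (W.map (Int.castRingHom ℚ)).IsElliptic := ⟨isUnit_iff_ne_zero.mpr hEΔ⟩
  have hW : W.IsIntegralModelOf (W.map (Int.castRingHom ℚ)) := ⟨1, one_smul _ _⟩
  have hLR : ∃ a : integralClosure ℤ ℂ, (a : ℂ) = ModularFormClass.qCoeff f p ∧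
      a ^ 2 - ((p : integralClosure ℤ ℂ) + 1) ^ 2 ∈ 𝔪 := by
    obtain ⟨a, ha, ha2⟩ := hap
    refine ⟨a, ha, ?_⟩
    have h1 : a ^ 2 - ((p : integralClosure ℤ ℂ) + 1) ^ 2 =
        (a ^ 2 - 1) - (p : integralClosure ℤ ℂ) * ((p : integralClosure ℤ ℂ) + 2) := by ring
    rw [h1]
    exact 𝔪.sub_mem ha2 (𝔪.mul_mem_right _ hpm)
  obtain ⟨h1, h2, h3⟩ := ann_lamNew_le (N := M) (q := p) (W.map (Int.castRingHom ℚ)) hW hp hp2 hpM
    hirr f 𝔪 hf hmax hpm hcong hLR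
  exact ⟨h1, isMaximal_comap_integralClosure (thetaOf hf) 𝔪, h2, h3⟩

end AtP

end Fermat.Agent.GE9.PNew.Point.AnnNew
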