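/-
GATE-E / RISK-4 R4-H seam (S2) PNEW-POINT-β, abstract half (helper32; claims row
GE9-PNEW-POINT-PKGNEW): **a modular point through the annihilator of a sublattice.**

`A` a commutative ring, finite over `ℤ`, acting on a finite free `ℤ`-module `Λ` through
`act : A →+* End_ℤ Λ`; `Λ' ≤ Λ` ANY additive subgroup (no stability assumed);
`J := annIdeal act Λ' = {t | t kills Λ'}`.

* `annIdeal`, `mem_annIdeal`; `A ⧸ J` is `ℤ`-torsion-free, hence `ℤ`-flat (`flat_quot_annIdeal`);
* **`exists_ext_eigensystem_of_supp`** : `𝒪` a complete DVR (char. 0, finite residue field),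
  `θ : A →+* k` with `J ≤ ker θ` (`hsupp`) ⟹ a finite extension `𝒪''` of `𝒪` and
  `χ : A →+* 𝒪''` with `residue (χ t) = θ t` and `χ = 0` on `J`
  (`Carrier.Tloc 𝒪 θ'` for `A ⧸ J` + `ExtPoint.exists_ext_point`);
* **`lift_eq_zero_of_kills`** : for `R` flat over `ℤ` and `χ : A →+* R` vanishing on `J`: every
  `t₀ : R ⊗ A` with `(R ⊗ act)(t₀)(a ⊗ x) = 0` for all `a : R`, `x ∈ Λ'` has
  `(Algebra.TensorProduct.lift … χ) t₀ = 0` — flat base change of the exact sequence
  `0 → J → A → Hom_ℤ(Λ', Λ)`.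
-/
import Mathlib
import Fermat.Agent.GB.B4.Datum.Carrier
import Fermat.Agent.GE9.Point.ExtPoint
import Fermat.Agent.GJ.Tate.Faithful

set_option autoImplicit false
set_option linter.unusedSectionVars false
set_option linter.unusedVariables false
set_option linter.style.haveILetI false

noncomputable section

open IsLocalRing TensorProduct
open Fermat.Agent.GB.B4.Datum.Carrier Fermat.Agent.GJ.Tate.Lim

namespace Fermat.Agent.GE9.PNew.Point

section Ann

variable {A : Type} [CommRing A] {Λ : Type} [AddCommGroup Λ]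
  (act : A →+* Module.End ℤ Λ) (Λ' : AddSubgroup Λ)

/-- the ideal of the elements of `A` killing the subgroup `Λ'` (an ideal because `A` is
commutative; `Λ'` need not be stable). -/
def annIdeal : Ideal A where
  carrier := {t | ∀ x ∈ Λ', act t x = 0}
  zero_mem' := fun x _ => by rw [map_zero]; rfl
  add_mem' := fun {s t} hs ht x hx => by
    rw [map_add, LinearMap.add_apply, hs x hx, ht x hx, add_zero]
  smul_mem' := fun c t ht x hx => by
    rw [smul_eq_mul, map_mul, Module.End.mul_apply, ht x hx, map_zero]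

theorem mem_annIdeal {t : A} : t ∈ annIdeal act Λ' ↔ ∀ x ∈ Λ', act t x = 0 := Iff.rfl

variable [Module.IsTorsionFree ℤ Λ]

/-- `A ⧸ J` is `ℤ`-torsion-free. -/
theorem smul_mem_annIdeal {n : ℤ} (hn : n ≠ 0) {t : A} (h : n • t ∈ annIdeal act Λ') :
    t ∈ annIdeal act Λ' := by
  intro x hx
  have h1 := h x hx
  rw [map_zsmul, LinearMap.smul_apply] at h1
  exact (smul_eq_zero.mp h1).resolve_left hn

end Ann

/-! ### the quotient `A ⧸ J` is finite and flat over `ℤ` -/

section Quot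

variable {A : Type} [CommRing A] [Module.Finite ℤ A] {Λ : Type} [AddCommGroup Λ]
  [Module.IsTorsionFree ℤ Λ] (act : A →+* Module.End ℤ Λ) (Λ' : AddSubgroup Λ)

instance finite_quot_annIdeal : Module.Finite ℤ (A ⧸ annIdeal act Λ') :=
  Module.Finite.of_surjective (Ideal.Quotient.mkₐ ℤ (annIdeal act Λ')).toLinearMap
    (Ideal.Quotient.mkₐ_surjective ℤ _)

instance torsionFree_quot_annIdeal : Module.IsTorsionFree ℤ (A ⧸ annIdeal act Λ') :=
  Module.IsTorsionFree.of_smul_eq_zero fun n x hx => by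
    obtain ⟨t, rfl⟩ := Ideal.Quotient.mk_surjective x
    by_cases hn : n = 0
    · exact Or.inl hn
    · right
      rw [← map_zsmul, Ideal.Quotient.eq_zero_iff_mem] at hx
      exact Ideal.Quotient.eq_zero_iff_mem.mpr (smul_mem_annIdeal act Λ' hn hx)

instance flat_quot_annIdeal : Module.Flat ℤ (A ⧸ annIdeal act Λ') := inferInstance

end Quot

/-! ### a point of `A ⧸ J` over a finite extension of the coefficient ring -/

section Point

variable {𝒪 : Type} [CommRing 𝒪] [IsDomain 𝒪] [IsDiscreteValuationRing 𝒪]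
  [IsAdicComplete (maximalIdeal 𝒪) 𝒪] [Finite (ResidueField 𝒪)] [CharZero 𝒪]
  {A : Type} [CommRing A] [Module.Finite ℤ A] {Λ : Type} [AddCommGroup Λ]
  [Module.IsTorsionFree ℤ Λ] (act : A →+* Module.End ℤ Λ) (Λ' : AddSubgroup Λ)

/-- **an eigensystem lifting `θ` and vanishing on the annihilator of `Λ'`, over a finite
extension of `𝒪`**, as soon as `θ` vanishes on that annihilator (`hsupp`). -/
theorem exists_ext_eigensystem_of_supp (θ : A →+* ResidueField 𝒪)
    (hsupp : ∀ t : A, (∀ x ∈ Λ', act t x = 0) → θ t = 0) :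
    ∃ (𝒪'' : Type) (_ : CommRing 𝒪'') (_ : IsDomain 𝒪'') (_ : IsDiscreteValuationRing 𝒪'')
      (_ : IsAdicComplete (maximalIdeal 𝒪'') 𝒪'')
      (_ : Finite (ResidueField 𝒪'')) (_ : CharZero 𝒪'')
      (_ : Algebra 𝒪 𝒪'') (_ : Module.Finite 𝒪 𝒪'') (_ : IsLocalHom (algebraMap 𝒪 𝒪'')),
      Function.Injective (algebraMap 𝒪 𝒪'') ∧
      ∃ χ : A →+* 𝒪'',
        (∀ t : A, residue 𝒪'' (χ t) = ResidueField.map (algebraMap 𝒪 𝒪'') (θ t)) ∧
        ∀ t : A, (∀ x ∈ Λ', act t x = 0) → χ t = 0 := by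
  -- the residual character of the quotient
  let θ' : A ⧸ annIdeal act Λ' →+* ResidueField 𝒪 :=
    Ideal.Quotient.lift (annIdeal act Λ') θ (fun t ht => hsupp t ht)
  have hθ' : ∀ t : A, θ' (Ideal.Quotient.mk (annIdeal act Λ') t) = θ t := fun t =>
    Ideal.Quotient.lift_mk (annIdeal act Λ') θ _
  obtain ⟨𝒪'', i1, i2, i3, i4, i5, i6, i7, i8, i9, hinj, ψ, hψ⟩ :=
    Fermat.Agent.GE9.Point.exists_ext_point 𝒪 (Tloc 𝒪 θ')
  refine ⟨𝒪'', i1, i2, i3, i4, i5, i6, i7, i8, i9, hinj,
    (ψ : Tloc 𝒪 θ' →+* 𝒪'').comp ((piT 𝒪 θ').comp (Ideal.Quotient.mk (annIdeal act Λ'))),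
    fun t => ?_, fun t ht => ?_⟩
  · have hloc : IsLocalHom (ψ : Tloc 𝒪 θ' →+* 𝒪'') := hψ
    obtain ⟨a, ha⟩ := residue_surjective (θ t)
    have h1 := residue_piT 𝒪 θ' (Ideal.Quotient.mk (annIdeal act Λ') t)
    rw [hθ', ← ha, ResidueField.map_residue] at h1
    rw [← ha, ResidueField.map_residue]
    have h2 : piT 𝒪 θ' (Ideal.Quotient.mk (annIdeal act Λ') t) - algebraMap 𝒪 (Tloc 𝒪 θ') a
        ∈ maximalIdeal (Tloc 𝒪 θ') := by
      rw [← residue_eq_zero_iff, map_sub, h1, sub_self]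
    have h3 : (ψ : Tloc 𝒪 θ' →+* 𝒪'')
        (piT 𝒪 θ' (Ideal.Quotient.mk (annIdeal act Λ') t) - algebraMap 𝒪 (Tloc 𝒪 θ') a)
          ∈ maximalIdeal 𝒪'' := by
      rw [mem_maximalIdeal, mem_nonunits_iff] at h2 ⊢
      exact fun hu => h2 (isUnit_of_map_unit (ψ : Tloc 𝒪 θ' →+* 𝒪'') _ hu)
    rw [map_sub] at h3
    have h4 : (ψ : Tloc 𝒪 θ' →+* 𝒪'') (algebraMap 𝒪 (Tloc 𝒪 θ') a) = algebraMap 𝒪 𝒪'' a :=
      ψ.commutes a
    rw [h4, ← residue_eq_zero_iff, map_sub, sub_eq_zero] at h3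
    exact h3
  · have h0 : Ideal.Quotient.mk (annIdeal act Λ') t = 0 :=
      Ideal.Quotient.eq_zero_iff_mem.mpr ht
    rw [RingHom.comp_apply, RingHom.comp_apply, h0, map_zero, map_zero]

end Point

/-! ### flat base change of the annihilator -/

section BaseChange

variable (R : Type) [CommRing R] [Module.Flat ℤ R]
  {A : Type} [CommRing A] {Λ : Type} [AddCommGroup Λ] [Module.Free ℤ Λ] [Module.Finite ℤ Λ]
  (act : A →+* Module.End ℤ Λ) (Λ' : AddSubgroup Λ)

/-- the restriction map `A → Hom_ℤ(Λ', Λ)`, `t ↦ (act t)|_{Λ'}`. -/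
def resHom : A →ₗ[ℤ] (↥(AddSubgroup.toIntSubmodule Λ') →ₗ[ℤ] Λ) :=
  (LinearMap.lcomp ℤ Λ (AddSubgroup.toIntSubmodule Λ').subtype) ∘ₗ
    act.toIntAlgHom.toLinearMap

theorem resHom_apply (t : A) (x : ↥(AddSubgroup.toIntSubmodule Λ')) :
    resHom act Λ' t x = act t (x : Λ) := rfl

theorem mem_ker_resHom {t : A} :
    t ∈ LinearMap.ker (resHom act Λ') ↔ ∀ x ∈ Λ', act t x = 0 := by
  rw [LinearMap.mem_ker]
  constructor
  · intro h x hx
    have := LinearMap.congr_fun h ⟨x, hx⟩
    exact this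
  · intro h
    refine LinearMap.ext fun x => ?_
    exact h x.1 x.2

/-- the base change of the restriction map, through `R ⊗ Hom_ℤ(Λ', Λ) ≃ Hom_R(R ⊗ Λ', R ⊗ Λ)`, is
the restriction of the base-changed action. -/
theorem equiv_lTensor_resHom
    [Module.FinitePresentation ℤ ↥(AddSubgroup.toIntSubmodule Λ')] (t₀ : R ⊗[ℤ] A) :
    (Module.FinitePresentation.isBaseChange_map ℤ ↥(AddSubgroup.toIntSubmodule Λ') Λ R).equiv
        ((resHom act Λ').lTensor R t₀)
      = (tensorEndAlg R act.toIntAlgHom t₀) ∘ₗ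
          ((AddSubgroup.toIntSubmodule Λ').subtype.baseChange R) := by
  induction t₀ using TensorProduct.induction_on with
  | zero => rw [map_zero, map_zero, map_zero, LinearMap.zero_comp]
  | tmul r t =>
    rw [LinearMap.lTensor_tmul, IsBaseChange.equiv_tmul, tensorEndAlg_tmul]
    refine TensorProduct.AlgebraTensorModule.curry_injective
      (LinearMap.ext fun a => LinearMap.ext fun x => ?_)
    simp only [TensorProduct.AlgebraTensorModule.curry_apply, TensorProduct.curry_apply,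
      LinearMap.baseChangeHom_apply]
    rfl
  | add a b ha hb =>
    rw [map_add, map_add, map_add, ha, hb, LinearMap.add_comp]

/-- **flat base change of the annihilator**: `χ : A →+* TQ` vanishing on the annihilator of `Λ'`,
`TQ` an algebra over the `ℤ`-flat ring `R`; then the `R`-linear extension of `χ` kills every
`t₀ : R ⊗ A` whose action on `R ⊗ Λ` vanishes on the image of `R ⊗ Λ'`. -/
theorem lift_eq_zero_of_kills {TQ : Type} [CommRing TQ] [Algebra R TQ] (χ : A →+* TQ)
    (hχ : ∀ t : A, (∀ x ∈ Λ', act t x = 0) → χ t = 0) (t₀ : R ⊗[ℤ] A)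
    (h : ∀ (a : R), ∀ x ∈ Λ', tensorEndAlg R act.toIntAlgHom t₀ (a ⊗ₜ[ℤ] x) = 0) :
    Algebra.TensorProduct.lift (Algebra.ofId R TQ) χ.toIntAlgHom
      (fun _ _ => Commute.all _ _) t₀ = 0 := by
  haveI : Module.FinitePresentation ℤ ↥(AddSubgroup.toIntSubmodule Λ') :=
    Module.finitePresentation_of_finite ℤ _
  -- `t₀` dies in `R ⊗ Hom_ℤ(Λ', Λ)`
  have h1 : (resHom act Λ').lTensor R t₀ = 0 := by
    apply (Module.FinitePresentation.isBaseChange_map ℤ
      ↥(AddSubgroup.toIntSubmodule Λ') Λ R).equiv.injective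
    rw [equiv_lTensor_resHom, map_zero]
    refine TensorProduct.AlgebraTensorModule.curry_injective
      (LinearMap.ext fun a => LinearMap.ext fun x => ?_)
    simp only [TensorProduct.AlgebraTensorModule.curry_apply, TensorProduct.curry_apply]
    exact h a x.1 x.2
  -- hence comes from `R ⊗ J`
  have hex : Function.Exact ((LinearMap.ker (resHom act Λ')).subtype.lTensor R)
      ((resHom act Λ').lTensor R) :=
    Module.Flat.lTensor_exact R (LinearMap.exact_subtype_ker_map (resHom act Λ'))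
  -- `χ` kills `R ⊗ J`
  have hkill : ∀ s : R ⊗[ℤ] ↥(LinearMap.ker (resHom act Λ')),
      Algebra.TensorProduct.lift (Algebra.ofId R TQ) χ.toIntAlgHom
        (fun _ _ => Commute.all _ _)
        ((LinearMap.ker (resHom act Λ')).subtype.lTensor R s) = 0 := by
    intro s
    induction s using TensorProduct.induction_on with
    | zero => rw [map_zero, map_zero]
    | tmul r j =>
      rw [LinearMap.lTensor_tmul, Algebra.TensorProduct.lift_tmul]
      have hj : χ (j : A) = 0 := hχ _ ((mem_ker_resHom act Λ').mp j.2)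
      show _ * χ (j : A) = 0
      rw [hj, mul_zero]
    | add a b ha hb => rw [map_add, map_add, ha, hb, add_zero]
  obtain ⟨s, rfl⟩ := (hex t₀).mp h1
  exact hkill s

end BaseChange

end Fermat.Agent.GE9.PNew.Point

end
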