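/-
GATE-E / RISK-4 (B-i)(a) of helper80 7985 (helper32; claims row GE9-PNEW-POINT-ANEMICNEW):
**the `p`-new point occurs in the `p`-new lattice** — a nonzero joint eigenvector of
`𝒪 ⊗[ℤ] Lam (M p)` for the eigensystem `χg`, inside `KNew hpM 𝒪`.

Abstract half (`Mathlib` + `GE9/Ind/EtaNe` + `GS/Pet/DatumAlg` + `AnnPoint`): `A` a REDUCED commutative
ring, finite over `ℤ`, acting on a finite free `ℤ`-module `Λ`; `Λ' ≤ Λ` an additive subgroup; `O` a
PID of characteristic `0`; `χ : A →+* O` vanishing on the annihilator of `Λ'`.  Then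
`T := (O ⊗ A) ⧸ {t₀ | t₀ kills O ⊗ Λ'}` is finite flat over `O`, generated by the image of `A`, hence
REDUCED (`DatumAlg.isReduced_of_adjoin_range`); `χ` induces an augmentation `χT : T →ₐ[O] O`
(`AnnPoint.lift_eq_zero_of_kills`), so there is `x₀ ∈ Ann (ker χT)` with `χT x₀ ≠ 0`
(`EtaNe.exists_ann_ker_of_isReduced`); any `y = x₀ • (a ⊗ x) ≠ 0`, `x ∈ Λ'`, is an eigenvector with
eigensystem `χ`.

* `tensorKillIdeal`, `exists_eigen_of_kills` (abstract);
* `latAct_mem_lamNew`, `baseChange_latAct_mem_KNew`, `tmul_mem_KNew` : stability of the `p`-new part;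
* **`exists_ne_zero_anemic_new`** : the instance (`A = heckeAlgebra (M p) 2 S`, `Λ' = LamNew hpM`).
-/
import Mathlib
import Fermat.Agent.GE9.Ind.EtaNe
import Fermat.Agent.GS.Pet.DatumAlg
import Fermat.Agent.GE9.PNew.Point.AnnPoint
import Fermat.Agent.GE9.PNew.Point.AnnNew
import Fermat.Agent.GE9.PNew.Inst.KNew
import Fermat.Agent.GS.Pet.Reduced
import Fermat.Agent.GB.B4.Twist.TwHom
import Fermat.Agent.GB.B4.Datum.HeckeCarrier
import Fermat.Agent.GE9.PNew.Point.PkgNew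

set_option autoImplicit false
set_option linter.unusedSectionVars false
set_option linter.unusedVariables false
set_option linter.style.haveILetI false

noncomputable section

open IsLocalRing TensorProduct
open Fermat.Agent.GJ.Tate.Lim

namespace Fermat.Agent.GE9.PNew.Point

/-! ### the abstract statement -/

section Abstract

variable (O : Type) [CommRing O]
  {A : Type} [CommRing A]
  {Λ : Type} [AddCommGroup Λ]
  (act : A →+* Module.End ℤ Λ) (Λ' : AddSubgroup Λ)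

/-- the ideal of `O ⊗ A` of the elements killing the pure tensors over `Λ'`. -/
def tensorKillIdeal : Ideal (O ⊗[ℤ] A) where
  carrier := {t₀ | ∀ (a : O), ∀ x ∈ Λ', tensorEndAlg O act.toIntAlgHom t₀ (a ⊗ₜ[ℤ] x) = 0}
  zero_mem' := fun a x _ => by rw [map_zero]; rfl
  add_mem' := fun {s t} hs ht a x hx => by
    rw [map_add, LinearMap.add_apply, hs a x hx, ht a x hx, add_zero]
  smul_mem' := fun c t ht a x hx => by
    rw [smul_eq_mul, map_mul, Module.End.mul_apply, ht a x hx, map_zero]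

theorem mem_tensorKillIdeal {t₀ : O ⊗[ℤ] A} :
    t₀ ∈ tensorKillIdeal O act Λ' ↔
      ∀ (a : O), ∀ x ∈ Λ', tensorEndAlg O act.toIntAlgHom t₀ (a ⊗ₜ[ℤ] x) = 0 := Iff.rfl

end Abstract

section AbstractMain

variable {O : Type} [CommRing O] [IsDomain O] [IsPrincipalIdealRing O] [CharZero O]
  {A : Type} [CommRing A] [IsReduced A] [Module.Finite ℤ A]

/-- **the annihilator of the kernel of an augmentation**, for a torsion-free quotient `T` of
`O ⊗ A` (`A` reduced, finite over `ℤ`): some `b₀ : O ⊗ A` with `χT (q b₀) ≠ 0` and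
`q (b₀ * b) = 0` whenever `χT (q b) = 0`. -/
theorem exists_ann_of_quot {T : Type} [CommRing T] [Algebra O T] (q : O ⊗[ℤ] A →ₐ[O] T)
    (hq : Function.Surjective q) (htf : ∀ (c : O) (x : T), c • x = 0 → c = 0 ∨ x = 0)
    (χT : T →ₐ[O] O) :
    ∃ b₀ : O ⊗[ℤ] A, χT (q b₀) ≠ 0 ∧ ∀ b : O ⊗[ℤ] A, χT (q b) = 0 → q (b₀ * b) = 0 := by
  haveI : Module.IsTorsionFree O T := Module.IsTorsionFree.of_smul_eq_zero htf
  haveI : Module.Flat O T := inferInstance
  -- `T` is generated by the image of `A`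
  let π : A →+* T :=
    (q : O ⊗[ℤ] A →+* T).comp
      ((Algebra.TensorProduct.includeRight : A →ₐ[ℤ] O ⊗[ℤ] A) : A →+* O ⊗[ℤ] A)
  have hπ0 : ∀ b : O ⊗[ℤ] A, q b ∈ Algebra.adjoin O (Set.range π) := by
    intro b
    induction b using TensorProduct.induction_on with
    | zero => rw [map_zero]; exact Subalgebra.zero_mem _
    | tmul r t =>
      have e : r ⊗ₜ[ℤ] t = r • ((1 : O) ⊗ₜ[ℤ] t : O ⊗[ℤ] A) := by
        rw [TensorProduct.smul_tmul', smul_eq_mul, mul_one]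
      have e2 : q (r ⊗ₜ[ℤ] t) = r • π t := by
        rw [e, map_smul]
        rfl
      rw [e2]
      exact Subalgebra.smul_mem _ (Algebra.subset_adjoin (Set.mem_range_self t)) r
    | add a b ha hb => rw [map_add]; exact Subalgebra.add_mem _ ha hb
  have hπ : Algebra.adjoin O (Set.range π) = ⊤ := by
    rw [eq_top_iff]
    intro x _
    obtain ⟨b, rfl⟩ := hq x
    exact hπ0 b
  haveI : IsReduced T := Fermat.Agent.GS.Pet.DatumAlg.isReduced_of_adjoin_range (O := O) π hπ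
  haveI : Module.Finite O T := Module.Finite.of_surjective q.toLinearMap hq
  haveI : IsNoetherianRing T := IsNoetherianRing.of_finite O T
  haveI : Algebra.IsIntegral O T := Algebra.IsIntegral.of_finite O T
  obtain ⟨x₀, hx₀, hπx₀⟩ := Fermat.Agent.GE9.Ind.exists_ann_ker_of_isReduced χT
  obtain ⟨b₀, rfl⟩ := hq x₀
  exact ⟨b₀, hπx₀, fun b hb => by rw [map_mul]; exact hx₀ _ hb⟩

variable {Λ : Type} [AddCommGroup Λ] [Module.Free ℤ Λ] [Module.Finite ℤ Λ]
  (act : A →+* Module.End ℤ Λ) (Λ' : AddSubgroup Λ)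

/-- **a character vanishing on the annihilator of `Λ'` occurs in `O ⊗ Λ'`.** -/
theorem exists_eigen_of_kills (χ : A →+* O)
    (hχ : ∀ t : A, (∀ x ∈ Λ', act t x = 0) → χ t = 0)
    (K : Submodule O (O ⊗[ℤ] Λ)) (hK₁ : ∀ (a : O), ∀ x ∈ Λ', a ⊗ₜ[ℤ] x ∈ K)
    (hK₂ : ∀ t : A, ∀ v ∈ K, (act t).baseChange O v ∈ K) :
    ∃ y : O ⊗[ℤ] Λ, y ≠ 0 ∧ y ∈ K ∧ ∀ t : A, (act t).baseChange O y = χ t • y := by
  classical
  haveI : Module.Flat ℤ O := inferInstance
  set I : Ideal (O ⊗[ℤ] A) := tensorKillIdeal O act Λ' with hI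
  set E : O ⊗[ℤ] A →ₐ[O] Module.End O (O ⊗[ℤ] Λ) := tensorEndAlg O act.toIntAlgHom with hE
  -- the augmentation
  let χB : O ⊗[ℤ] A →ₐ[O] O :=
    Algebra.TensorProduct.lift (Algebra.ofId O O) χ.toIntAlgHom (fun _ _ => Commute.all _ _)
  have hχB : ∀ t₀ ∈ I, χB t₀ = 0 := fun t₀ ht₀ =>
    lift_eq_zero_of_kills O act Λ' χ hχ t₀ ht₀
  let χT : (O ⊗[ℤ] A) ⧸ I →ₐ[O] O := Ideal.Quotient.liftₐ I χB hχB
  have hχT : ∀ b : O ⊗[ℤ] A, χT (Ideal.Quotient.mkₐ O I b) = χB b := fun b => rfl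
  -- torsion-freeness of the quotient
  have htf : ∀ (c : O) (x : (O ⊗[ℤ] A) ⧸ I), c • x = 0 → c = 0 ∨ x = 0 := by
    intro c x hx
    obtain ⟨b, rfl⟩ := Ideal.Quotient.mkₐ_surjective O I x
    by_cases hc : c = 0
    · exact Or.inl hc
    · right
      rw [← map_smul, Ideal.Quotient.mkₐ_eq_mk, Ideal.Quotient.eq_zero_iff_mem] at hx
      rw [Ideal.Quotient.mkₐ_eq_mk, Ideal.Quotient.eq_zero_iff_mem]
      intro a x hxΛ
      have h2 := hx a x hxΛ
      rw [map_smul, LinearMap.smul_apply] at h2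
      exact (smul_eq_zero.mp h2).resolve_left hc
  obtain ⟨b₀, hb₀χ, hb₀⟩ := exists_ann_of_quot (T := (O ⊗[ℤ] A) ⧸ I) (Ideal.Quotient.mkₐ O I)
    (Ideal.Quotient.mkₐ_surjective O I) htf χT
  have hb₀I : b₀ ∉ I := fun h => hb₀χ (by
    rw [Ideal.Quotient.mkₐ_eq_mk, Ideal.Quotient.eq_zero_iff_mem.mpr h, map_zero])
  have hex : ∃ (a : O) (x : Λ), x ∈ Λ' ∧ E b₀ (a ⊗ₜ[ℤ] x) ≠ 0 := by
    by_contra hcon
    push Not at hcon
    exact hb₀I (fun a x hx => hcon a x hx)
  obtain ⟨a, x, hx, hy⟩ := hex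
  -- `E b` preserves `K`
  have hEK : ∀ (b : O ⊗[ℤ] A) (v : O ⊗[ℤ] Λ), v ∈ K → E b v ∈ K := by
    intro b v hv
    induction b using TensorProduct.induction_on with
    | zero => rw [map_zero]; exact K.zero_mem
    | tmul r t =>
      rw [hE, tensorEndAlg_tmul, LinearMap.smul_apply]
      exact K.smul_mem r (hK₂ t v hv)
    | add b₁ b₂ h₁ h₂ => rw [map_add, LinearMap.add_apply]; exact K.add_mem h₁ h₂
  refine ⟨E b₀ (a ⊗ₜ[ℤ] x), hy, hEK b₀ _ (hK₁ a x hx), fun t => ?_⟩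
  set bt : O ⊗[ℤ] A := (1 : O) ⊗ₜ[ℤ] t - algebraMap O (O ⊗[ℤ] A) (χ t) with hbt
  have h1 : χT (Ideal.Quotient.mkₐ O I bt) = 0 := by
    rw [hχT, hbt, map_sub, AlgHom.commutes]
    show Algebra.TensorProduct.lift (Algebra.ofId O O) χ.toIntAlgHom
      (fun _ _ => Commute.all _ _) ((1 : O) ⊗ₜ[ℤ] t) - _ = 0
    rw [Algebra.TensorProduct.lift_tmul, map_one, one_mul]
    exact sub_self _
  have h2 := hb₀ bt h1
  have h3 : b₀ * bt ∈ I := by
    rw [← Ideal.Quotient.eq_zero_iff_mem]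
    exact h2
  have h4 := h3 a x hx
  rw [mul_comm, map_mul, Module.End.mul_apply] at h4
  have h5 : ∀ v : O ⊗[ℤ] Λ, E bt v = (act t).baseChange O v - χ t • v := by
    intro v
    rw [hbt, map_sub, LinearMap.sub_apply, AlgHom.commutes, Module.algebraMap_end_apply, hE,
      tensorEndAlg_tmul, one_smul]
    rfl
  rw [h5] at h4
  exact sub_eq_zero.mp h4

end AbstractMain

/-! ### the instance: the `p`-new lattice of level `M p` -/

section Instance

open Fermat.Agent.GJ.J2.Lat Fermat.Agent.GJ.J2.LatAct Fermat.Agent.GB.B10.L.ThetaNew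
open Fermat.Agent.GE9.PNew.Inst Fermat.Agent.GE9.PNew.Inst.PolyLin Fermat.Agent.GM.B5
open Fermat.Agent.GB.B4.Twist CuspForm Fermat.Agent.GM.B
open Fermat.Agent.GE9.PNew.Point.AnnNew Fermat.Agent.GB.B4.Datum.HeckeCarrier

variable {M p : ℕ} [Fact p.Prime] [NeZero M] [NeZero (M * p)] (hpM : ¬ p ∣ M) {S : Set ℕ}

/-- the `p`-new lattice is stable under the Hecke operators prime to the level. -/
theorem latT_mem_lamNew (l : Nat.Primes) (hl : ¬ (l : ℕ) ∣ M * p) {z : Lam (M * p)}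
    (hz : z ∈ LamNew hpM) : latT (M * p) l z ∈ LamNew hpM := by
  rw [← betaP_eq_zero_iff_mem_lamNew hpM] at hz ⊢
  rw [betaP_latT hpM l hl z, hz]
  exact Prod.ext (map_zero _) (map_zero _)

/-- **the `p`-new lattice is stable under the Hecke algebra away from `S ⊇` primes of `M p`.** -/
theorem latAct_mem_lamNew (hNS : ∀ q : ℕ, q.Prime → q ∣ M * p → q ∈ S)
    (t : heckeAlgebra (M * p) 2 S) {z : Lam (M * p)} (hz : z ∈ LamNew hpM) :
    latAct (M * p) S t z ∈ LamNew hpM := by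
  have ht : t ∈ Subring.closure (Set.range (formsGenS (M * p) S)) := by
    rw [TwHom.closure_range_formsGenS]
    exact Subring.mem_top t
  induction ht using Subring.closure_induction generalizing z with
  | mem x hx =>
    obtain ⟨l, rfl⟩ := hx
    have hl : ¬ (l.1 : ℕ) ∣ M * p := fun hd => l.2 (hNS _ l.1.2 hd)
    rw [formsGenS_of_not_dvd (M * p) S l hl, latAct_T]
    exact latT_mem_lamNew hpM l.1 hl hz
  | zero => rw [map_zero]; exact (LamNew hpM).zero_mem
  | one => rw [map_one]; exact hz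
  | add a b _ _ ha hb =>
    rw [map_add, LinearMap.add_apply]
    exact (LamNew hpM).add_mem (ha hz) (hb hz)
  | neg a _ ha =>
    rw [map_neg, LinearMap.neg_apply]
    exact (LamNew hpM).neg_mem (ha hz)
  | mul a b _ _ ha hb =>
    rw [map_mul, Module.End.mul_apply]
    exact ha (hb hz)

variable (O : Type) [CommRing O]

/-- the pure tensors over the `p`-new lattice are `p`-new. -/
theorem tmul_mem_KNew (a : O) {x : Lam (M * p)} (hx : x ∈ LamNew hpM) :
    a ⊗ₜ[ℤ] x ∈ KNew hpM O := by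
  have h0 : betaP ℤ hpM x = 0 := (betaP_eq_zero_iff_mem_lamNew hpM x).mpr hx
  rw [mem_KNew]
  constructor
  · show (bP1 hpM).baseChange O (a ⊗ₜ[ℤ] x) = 0
    rw [LinearMap.baseChange_tmul, bP1_apply, h0]
    exact TensorProduct.tmul_zero _ a
  · show (bP2 hpM).baseChange O (a ⊗ₜ[ℤ] x) = 0
    rw [LinearMap.baseChange_tmul, bP2_apply, h0]
    exact TensorProduct.tmul_zero _ a

/-- the `p`-new part of `O ⊗ Λ_{M p}` is stable under the Hecke algebra away from
`S ⊇` primes of `M p`. -/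
theorem baseChange_latAct_mem_KNew (hNS : ∀ q : ℕ, q.Prime → q ∣ M * p → q ∈ S)
    (t : heckeAlgebra (M * p) 2 S) {v : O ⊗[ℤ] Lam (M * p)} (hv : v ∈ KNew hpM O) :
    (latAct (M * p) S t).baseChange O v ∈ KNew hpM O := by
  have ht : t ∈ Subring.closure (Set.range (formsGenS (M * p) S)) := by
    rw [TwHom.closure_range_formsGenS]
    exact Subring.mem_top t
  induction ht using Subring.closure_induction generalizing v with
  | mem x hx =>
    obtain ⟨l, rfl⟩ := hx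
    have hl : ¬ (l.1 : ℕ) ∣ M * p := fun hd => l.2 (hNS _ l.1.2 hd)
    rw [formsGenS_of_not_dvd (M * p) S l hl, latAct_T]
    rw [mem_KNew] at hv ⊢
    have h1 := bp1O_latT_of_not_dvd (𝒪 := O) hpM l.1 hl v
    have h2 := bp2O_latT_of_not_dvd (𝒪 := O) hpM l.1 hl v
    rw [hv.1, map_zero] at h1
    rw [hv.2, map_zero] at h2
    exact ⟨h1, h2⟩
  | zero => rw [map_zero, LinearMap.baseChange_zero]; exact (KNew hpM O).zero_mem
  | one =>
    rw [map_one, Module.End.one_eq_id, LinearMap.baseChange_id]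
    exact hv
  | add a b _ _ ha hb =>
    rw [map_add, LinearMap.baseChange_add, LinearMap.add_apply]
    exact (KNew hpM O).add_mem (ha hv) (hb hv)
  | neg a _ ha =>
    rw [map_neg, LinearMap.baseChange_neg, LinearMap.neg_apply]
    exact (KNew hpM O).neg_mem (ha hv)
  | mul a b _ _ ha hb =>
    rw [map_mul, Module.End.mul_eq_comp, LinearMap.baseChange_comp, LinearMap.comp_apply]
    exact ha (hb hv)

variable [IsDomain O] [IsPrincipalIdealRing O] [CharZero O]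

/-- **(B-i)(a): the `p`-new point occurs in the `p`-new part.**  `χ` an eigensystem of level `M p`
(away from `S ⊇` primes of `M p`) vanishing on the operators which kill the `p`-new lattice
(`PkgNew.exists_pkg_point_new`, conjunct `hkill`); then `KNew hpM O` contains a nonzero joint
eigenvector for `χ` — for the whole Hecke algebra, in particular for the `T_ℓ`, `ℓ ∉ S`. -/
theorem exists_ne_zero_anemic_new (hNS : ∀ q : ℕ, q.Prime → q ∣ M * p → q ∈ S)
    (χ : heckeAlgebra (M * p) 2 S →+* O)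
    (hkill : ∀ t : heckeAlgebra (M * p) 2 S,
      (∀ x ∈ (LamNew hpM : AddSubgroup (Lam (M * p))), latAct (M * p) S t x = 0) → χ t = 0) :
    ∃ y : O ⊗[ℤ] Lam (M * p), y ≠ 0 ∧ y ∈ KNew hpM O ∧
      (∀ t : heckeAlgebra (M * p) 2 S, (latAct (M * p) S t).baseChange O y = χ t • y) ∧
      ∀ (ℓ : ℕ) (hℓ : ℓ.Prime) (hℓN : ¬ ℓ ∣ M * p) (hℓS : ℓ ∉ S),
        (latT (M * p) (⟨ℓ, hℓ⟩ : Nat.Primes)).baseChange O y
          = χ (heckeAlgebra.T hℓ hℓN hℓS) • y := by
  haveI : IsReduced (heckeAlgebra (M * p) 2 S) :=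
    Fermat.Agent.GS.Pet.isReduced_heckeAlgebra (M * p) 2 S hNS
  obtain ⟨y, hy0, hyK, hy⟩ := exists_eigen_of_kills (O := O) (latAct (M * p) S) (LamNew hpM) χ hkill
    (KNew hpM O) (fun a x hx => tmul_mem_KNew hpM O a hx)
    (fun t v hv => baseChange_latAct_mem_KNew hpM O hNS t hv)
  refine ⟨y, hy0, hyK, hy, fun ℓ hℓ hℓN hℓS => ?_⟩
  rw [← hy (heckeAlgebra.T hℓ hℓN hℓS), latAct_T]

end Instance

/-! ### at a SETUP bundle -/

section Bundle

open WeierstrassCurve WeierstrassCurve.Affine.Point CuspForm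
open scoped WeierstrassCurve.Affine
open Fermat.Agent.GB.Setup.SetupPkg
open Fermat.Agent.GJ.J2.Lat Fermat.Agent.GJ.J2.LatAct Fermat.Agent.GB.B10.L.ThetaNew
open Fermat.Agent.GE9.PNew.Inst

variable {p : ℕ} [Fact p.Prime] {W : WeierstrassCurve ℤ}
  {hcard₁ : Nat.card (Submodule.torsionBy ℤ
    ((W.map (Int.castRingHom ℚ))⁄(AlgebraicClosure ℚ)).Point p) = p ^ 2}
  {hker : GaloisFactorsThroughFiniteLevel
    (galoisRepModuleEnd (K := AlgebraicClosure ℚ) ℚ (W.map (Int.castRingHom ℚ)) p)}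
  {M A : ℕ}

/-- **(B-i)(a) at a bundle**: the `p`-new point `χg` of `PkgNew.exists_pkg_point_new` (conjunct
`hkill`) has a nonzero joint eigenvector in `KNew hpM P.O ⊆ P.O ⊗ Λ_{M p}`. -/
theorem exists_ne_zero_anemic_new_pkg [NeZero M] [NeZero (M * p)] (hpM : ¬ p ∣ M)
    (P : Pkg p W hcard₁ hker (M * p) A)
    (χg : heckeAlgebra (M * p) 2 (↑P.S0 : Set ℕ) →+* P.O)
    (hkill : ∀ t : heckeAlgebra (M * p) 2 (↑P.S0 : Set ℕ),
      (∀ x ∈ (LamNew hpM : AddSubgroup (Lam (M * p))),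
        latAct (M * p) (↑P.S0 : Set ℕ) t x = 0) → χg t = 0) :
    ∃ y : P.O ⊗[ℤ] Lam (M * p), y ≠ 0 ∧ y ∈ KNew hpM P.O ∧
      (∀ t : heckeAlgebra (M * p) 2 (↑P.S0 : Set ℕ),
        (latAct (M * p) (↑P.S0 : Set ℕ) t).baseChange P.O y = χg t • y) ∧
      ∀ (ℓ : ℕ) (hℓ : ℓ.Prime) (hℓN : ¬ ℓ ∣ M * p) (hℓS : ℓ ∉ (↑P.S0 : Set ℕ)),
        (latT (M * p) (⟨ℓ, hℓ⟩ : Nat.Primes)).baseChange P.O y
          = χg (heckeAlgebra.T hℓ hℓN hℓS) • y :=
  exists_ne_zero_anemic_new hpM P.O P.hMS0 χg hkill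

end Bundle

end Fermat.Agent.GE9.PNew.Point

end
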