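/-
GATE-E / RISK-4 R4-H seam (S2) PNEW-POINT-β (helper32; claims row GE9-PNEW-POINT-PKGNEW):
**the SETUP bundle of level `M p` re-based on a coefficient ring carrying a `p`-NEW modular point**
— the `p`-new twin of `GE9/Point/PkgExt.exists_pkg_point` (helper33).

`P₀ : Pkg p W hcard₁ hker (M * p) A`, `p ∤ M`, `A := heckeAlgebra (M p) 2 ↑P₀.S0` acting on the
lattice `Lam (M p)` through `latAct`; `LamNew hpM = ker cores ∩ ker coresD` the `p`-new lattice.
Input (S1) (helper35, PNEW-POINT-α), at `ℤ`-level: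

  `hsupp : ∀ t : A, (∀ x ∈ LamNew hpM, latAct (M p) ↑P₀.S0 t x = 0) → P₀.theta t = 0`

(the annihilator of the `p`-new lattice lies in the maximal ideal of `θ̄`).  Output: a bundle `P`
with the same modularity datum, `ι : P₀.O →+* P.O` local and injective, and an eigensystem
`χ : A →+* P.O` lifting `P.theta` which KILLS the annihilator of `P.O ⊗ LamNew` — the binder `hann`
of `GE9/Stage/RawSOBase.exists_rawSO_base` / `GE/Engine/StepSO.StepSupplySO` VERBATIM at
`T' := P.O`, `π' := χ`.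

* `heckeTensor_eq_tensorEndAlg` : `(levelData …).heckeTensor R = tensorEndAlg R (latAct …)`;
* `hann_of_kills` : a character `χ : A →+* TQ` (`TQ` an algebra over the `ℤ`-flat `R`) vanishing
  on the `ℤ`-annihilator of `LamNew` satisfies `hann` over `R` (`AnnPoint.lift_eq_zero_of_kills`);
* **`exists_pkg_point_new`**.
-/
import Fermat.Agent.GE9.PNew.Point.AnnPoint
import Fermat.Agent.GE9.Point.PkgExt
import Fermat.Agent.GB.B10.L.GalPkgSO
import Fermat.Agent.GB.B10.L.ThetaNew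

set_option autoImplicit false
set_option linter.unusedSectionVars false
set_option linter.unusedVariables false
set_option linter.style.haveILetI false

noncomputable section

open WeierstrassCurve WeierstrassCurve.Affine.Point Polynomial IsLocalRing CuspForm TensorProduct
open scoped WeierstrassCurve.Affine

namespace Fermat.Agent.GE9.PNew.Point

open Fermat.Agent.GB.Setup.SetupPkg Fermat.Agent.GB.Setup.RhoBar Fermat.Agent.GB.Setup.Theta
open Fermat.Agent.GB.B4.Datum.HeckeCarrier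
open Fermat.Agent.GJ.J2.Lat Fermat.Agent.GJ.J2.LatAct Fermat.Agent.GJ.Tate Fermat.Agent.GJ.Tate.Lim
open Fermat.Agent.GB.B10.KumLevelHecke Fermat.Agent.GB.B10.L.ThetaNew
open Fermat.Agent.GE9.Point

/-! ### `hann` from the `ℤ`-level annihilator -/

section Hann

variable {N' p : ℕ} [NeZero N'] [Fact p.Prime] [NeZero (N' * p)] {S : Finset ℕ}
  (hpN' : ¬ p ∣ N') (hpS : p ∈ S) (hNS : ∀ q : ℕ, q.Prime → q ∣ N' * p → q ∈ S)

/-- **`hann` over any `ℤ`-flat coefficient ring from the `ℤ`-level annihilator**: a character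
`χ` of the Hecke algebra vanishing on the operators which kill the `p`-new lattice kills every
`t₀ : R ⊗ 𝕋` which kills `R ⊗ LamNew`. -/
theorem hann_of_kills (R : Type) [CommRing R] [Module.Flat ℤ R]
    {TQ : Type} [CommRing TQ] [Algebra R TQ]
    (χ : heckeAlgebra (N' * p) 2 (↑S : Set ℕ) →+* TQ)
    (hχ : ∀ t : heckeAlgebra (N' * p) 2 (↑S : Set ℕ),
      (∀ x ∈ (LamNew hpN' : AddSubgroup (Lam (N' * p))),
        latAct (N' * p) (↑S : Set ℕ) t x = 0) → χ t = 0)
    (t₀ : R ⊗[ℤ] heckeAlgebra (N' * p) 2 (↑S : Set ℕ))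
    (h : ∀ (a : R), ∀ x ∈ (LamNew hpN' : AddSubgroup (levelData p (N' * p) hpS hNS).Λ),
      (levelData p (N' * p) hpS hNS).heckeTensor R t₀ (a ⊗ₜ[ℤ] x) = 0) :
    Fermat.Agent.GB.B10.L.GalPkgSO.twO (𝒪 := R) χ t₀ = 0 :=
  lift_eq_zero_of_kills R (latAct (N' * p) (↑S : Set ℕ)) (LamNew hpN') χ hχ t₀ h

end Hann

/-! ### the bundle re-based on a coefficient ring with a `p`-new modular point -/

variable {p : ℕ} [Fact p.Prime] {W : WeierstrassCurve ℤ}
  {hcard₁ : Nat.card (Submodule.torsionBy ℤ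
    ((W.map (Int.castRingHom ℚ))⁄(AlgebraicClosure ℚ)).Point p) = p ^ 2}
  {hker : GaloisFactorsThroughFiniteLevel
    (galoisRepModuleEnd (K := AlgebraicClosure ℚ) ℚ (W.map (Int.castRingHom ℚ)) p)}
  {M A : ℕ}

/-- **(S2) PNEW-POINT-β: the bundle of level `M p` re-based on a coefficient ring with a `p`-NEW
modular point.** -/
theorem exists_pkg_point_new [NeZero M] [NeZero (M * p)] (hpM : ¬ p ∣ M)
    (P₀ : Pkg p W hcard₁ hker (M * p) A)
    (hsupp : ∀ t : heckeAlgebra (M * p) 2 (↑P₀.S0 : Set ℕ),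
      (∀ x ∈ (LamNew hpM : AddSubgroup (Lam (M * p))),
        latAct (M * p) (↑P₀.S0 : Set ℕ) t x = 0) → P₀.theta t = 0) :
    ∃ (P : Pkg p W hcard₁ hker (M * p) A) (ι : P₀.O →+* P.O)
      (χ : heckeAlgebra (M * p) 2 (↑P.S0 : Set ℕ) →+* P.O),
      P.D = P₀.D ∧ IsLocalHom ι ∧ Function.Injective ι ∧
      (∀ t : heckeAlgebra (M * p) 2 (↑P.S0 : Set ℕ), residue P.O (χ t) = P.theta t) ∧
      (∀ t : heckeAlgebra (M * p) 2 (↑P.S0 : Set ℕ),
        (∀ x ∈ (LamNew hpM : AddSubgroup (Lam (M * p))),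
          latAct (M * p) (↑P.S0 : Set ℕ) t x = 0) → χ t = 0) ∧
      ∀ (hpS : p ∈ P.S0) (hNS : ∀ q : ℕ, q.Prime → q ∣ M * p → q ∈ P.S0)
        (t₀ : P.O ⊗[ℤ] heckeAlgebra (M * p) 2 (↑P.S0 : Set ℕ)),
        (∀ (a : P.O), ∀ x ∈ (LamNew hpM : AddSubgroup (levelData p (M * p) hpS hNS).Λ),
          (levelData p (M * p) hpS hNS).heckeTensor P.O t₀ (a ⊗ₜ[ℤ] x) = 0) →
        Fermat.Agent.GB.B10.L.GalPkgSO.twO (𝒪 := P.O) χ t₀ = 0 := by
  obtain ⟨O'', i1, i2, i3, i4, i5, i6, i7, i8, i9, hinj', χ, hχres, hχkill⟩ :=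
    exists_ext_eigensystem_of_supp (𝒪 := P₀.O) (latAct (M * p) (↑P₀.S0 : Set ℕ))
      (LamNew hpM) P₀.theta hsupp
  obtain ⟨a1, a2, a3, a4, -, e2, hi, hp, ⟨ϖ, hϖ⟩, hζ, hk⟩ :=
    coeff_ext P₀.injZp P₀.hpO P₀.ζ P₀.hζ P₀.hk O'' hinj'
  let P : Pkg p W hcard₁ hker (M * p) A :=
    { O := O''
      crO := i1
      domO := i2
      dvrO := i3
      complO := i4
      finO := i5
      char0 := i6
      algZp := a1
      finZp := a2
      locZp := a3
      algk := a4
      injZp := hi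
      ϖ := ϖ
      hϖ := hϖ
      hpO := hp
      ζ := algebraMap P₀.O O'' P₀.ζ
      hζ := hζ
      hk := hk
      D := P₀.D
      hM := P₀.hM
      hp2 := P₀.hp2
      hΔ := P₀.hΔ
      hirr := P₀.hirr
      htrans := P₀.htrans }
  refine ⟨P, algebraMap P₀.O O'', χ, rfl, i9, hinj', fun t => ?_, hχkill, ?_⟩
  · refine (hχres t).trans ?_
    change ResidueField.map (algebraMap P₀.O O'')
        (algebraMap (ZMod p) (ResidueField P₀.O)
          (theta P₀.D (↑P₀.S0 : Set ℕ) P₀.hpS0 P₀.hMS0 P₀.hWS0 t)) =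
      algebraMap (ZMod p) (ResidueField O'')
        (theta P₀.D (↑P₀.S0 : Set ℕ) P₀.hpS0 P₀.hMS0 P₀.hWS0 t)
    rw [e2]
    rfl
  · intro hpS hNS t₀ h
    haveI : Module.Flat ℤ O'' := inferInstance
    exact hann_of_kills hpM hpS hNS O'' χ hχkill t₀ h

end Fermat.Agent.GE9.PNew.Point

end
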