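/-
GATE-E / RISK-4 R4-H, by-product of (S2)/(N4) asked by helper80 (7829) (helper32):
**the BASE CARRIER of the `p`-new branch from a `p`-new modular point** — the first four conjuncts
of `GE/Engine/SObBase.BaseSupplySOb`.

`P` a bundle at the level `M p`, `p ∤ M`; `χ : 𝕋 := heckeAlgebra (M p) 2 ↑P.S0 →+* P.O` a `p`-new
modular point (`residue (χ t) = P.theta t`, `χ = 0` on `J := Ann_𝕋(LamNew)`; the output of
`PkgNew.exists_pkg_point_new`).  Then `θ̄` factors through `𝕋 ⧸ J` (finite, `ℤ`-flat: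
`AnnPoint.flat_quot_annIdeal`) and

  `T' := Carrier.Tloc P.O θ̄'`,  `π' := piT ∘ mk : 𝕋 →+* T'`

is a local, finite free `P.O`-algebra generated by the image of `π'`, with `π' = 0` on `J` (hence
`hann`, `PkgNew.hann_of_kills`) and an augmentation `πO' : T' →ₐ[P.O] P.O` with `πO' ∘ π' = χ`
(`Carrier.exists_point`).
-/
import Fermat.Agent.GE9.PNew.Point.PkgNew

set_option autoImplicit false
set_option linter.unusedSectionVars false
set_option linter.unusedVariables false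
set_option linter.style.haveILetI false

noncomputable section

open WeierstrassCurve WeierstrassCurve.Affine.Point Polynomial IsLocalRing CuspForm TensorProduct
open scoped WeierstrassCurve.Affine

namespace Fermat.Agent.GE9.PNew.Point

open Fermat.Agent.GB.Setup.SetupPkg Fermat.Agent.GB.B4.Datum.Carrier
open Fermat.Agent.GB.B4.Datum.HeckeCarrier
open Fermat.Agent.GJ.J2.Lat Fermat.Agent.GJ.J2.LatAct
open Fermat.Agent.GB.B10.KumLevelHecke Fermat.Agent.GB.B10.L.ThetaNew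

/-! ### abstract form -/

section Abstract

variable {𝒪 : Type} [CommRing 𝒪] [IsDomain 𝒪] [IsDiscreteValuationRing 𝒪]
  [IsAdicComplete (maximalIdeal 𝒪) 𝒪]
  {𝕋 : Type} [CommRing 𝕋] [Module.Finite ℤ 𝕋] {Λ : Type} [AddCommGroup Λ]
  [Module.IsTorsionFree ℤ Λ] (act : 𝕋 →+* Module.End ℤ Λ) (Λ' : AddSubgroup Λ)

/-- **the carrier through the annihilator of a sublattice**: a character `χ : 𝕋 →+* 𝒪` lifting
`θ` and vanishing on `J = Ann_𝕋(Λ')` factors through the local, finite free `𝒪`-algebra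
`Tloc 𝒪 θ'`, `θ'` the character of `𝕋 ⧸ J` induced by `θ`. -/
theorem exists_carrier_of_kills (θ : 𝕋 →+* ResidueField 𝒪) (χ : 𝕋 →+* 𝒪)
    (hχ : ∀ t : 𝕋, residue 𝒪 (χ t) = θ t)
    (hχkill : ∀ t : 𝕋, (∀ x ∈ Λ', act t x = 0) → χ t = 0) :
    ∃ (T' : Type) (_ : CommRing T') (_ : IsLocalRing T') (_ : Algebra 𝒪 T')
      (_ : Module.Finite 𝒪 T') (_ : Module.Free 𝒪 T')
      (π' : 𝕋 →+* T') (πO' : T' →ₐ[𝒪] 𝒪),
      Algebra.adjoin 𝒪 (Set.range π') = ⊤ ∧
      (∀ t : 𝕋, πO' (π' t) = χ t) ∧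
      (∀ t : 𝕋, (∀ x ∈ Λ', act t x = 0) → π' t = 0) := by
  have hsupp : ∀ t : 𝕋, (∀ x ∈ Λ', act t x = 0) → θ t = 0 := fun t ht => by
    rw [← hχ, hχkill t ht, _root_.map_zero]
  obtain ⟨πO', hπO'⟩ := exists_point 𝒪
    (Ideal.Quotient.lift (annIdeal act Λ') θ (fun t ht => hsupp t ht))
    (Ideal.Quotient.lift (annIdeal act Λ') χ (fun t ht => hχkill t ht))
    (fun t => by
      obtain ⟨t, rfl⟩ := Ideal.Quotient.mk_surjective t
      rw [Ideal.Quotient.lift_mk, Ideal.Quotient.lift_mk]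
      exact hχ t)
  refine ⟨Tloc 𝒪 (Ideal.Quotient.lift (annIdeal act Λ') θ (fun t ht => hsupp t ht)),
    inferInstance, inferInstance, inferInstance, inferInstance, inferInstance,
    (piT 𝒪 (Ideal.Quotient.lift (annIdeal act Λ') θ (fun t ht => hsupp t ht))).comp
      (Ideal.Quotient.mk (annIdeal act Λ')), πO', ?_, ?_, ?_⟩
  · have hrange : Set.range ((piT 𝒪 (Ideal.Quotient.lift (annIdeal act Λ') θ
          (fun t ht => hsupp t ht))).comp (Ideal.Quotient.mk (annIdeal act Λ'))) =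
        Set.range (piT 𝒪 (Ideal.Quotient.lift (annIdeal act Λ') θ
          (fun t ht => hsupp t ht))) := by
      ext y
      constructor
      · rintro ⟨t, rfl⟩
        exact ⟨Ideal.Quotient.mk (annIdeal act Λ') t, rfl⟩
      · rintro ⟨t, rfl⟩
        obtain ⟨t, rfl⟩ := Ideal.Quotient.mk_surjective t
        exact ⟨t, rfl⟩
    rw [hrange]
    exact adjoin_range_piT 𝒪 _
  · intro t
    rw [RingHom.comp_apply, hπO']
    exact Ideal.Quotient.lift_mk (annIdeal act Λ') χ _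
  · intro t ht
    have h0 : Ideal.Quotient.mk (annIdeal act Λ') t = 0 :=
      Ideal.Quotient.eq_zero_iff_mem.mpr ht
    rw [RingHom.comp_apply, h0, _root_.map_zero]

end Abstract

/-! ### the bundle form -/

variable {p : ℕ} [Fact p.Prime] {W : WeierstrassCurve ℤ}
  {hcard₁ : Nat.card (Submodule.torsionBy ℤ
    ((W.map (Int.castRingHom ℚ))⁄(AlgebraicClosure ℚ)).Point p) = p ^ 2}
  {hker : GaloisFactorsThroughFiniteLevel
    (galoisRepModuleEnd (K := AlgebraicClosure ℚ) ℚ (W.map (Int.castRingHom ℚ)) p)}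
  {M A : ℕ}

/-- **the base carrier of the `p`-new branch** (`T' = Tloc P.O θ̄'` over `𝕋 ⧸ Ann_𝕋(LamNew)`),
with `hgen`, `hann`, the augmentation `πO' ∘ π' = χ`, and `π' = 0` on the annihilator. -/
theorem exists_base_carrier_new [NeZero M] [NeZero (M * p)] (hpM : ¬ p ∣ M)
    (P : Pkg p W hcard₁ hker (M * p) A)
    (χ : heckeAlgebra (M * p) 2 (↑P.S0 : Set ℕ) →+* P.O)
    (hχ : ∀ t : heckeAlgebra (M * p) 2 (↑P.S0 : Set ℕ), residue P.O (χ t) = P.theta t)
    (hχkill : ∀ t : heckeAlgebra (M * p) 2 (↑P.S0 : Set ℕ),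
      (∀ x ∈ (LamNew hpM : AddSubgroup (Lam (M * p))),
        latAct (M * p) (↑P.S0 : Set ℕ) t x = 0) → χ t = 0) :
    ∃ (T' : Type) (_ : CommRing T') (_ : IsLocalRing T') (_ : Algebra P.O T')
      (_ : Module.Finite P.O T') (_ : Module.Free P.O T')
      (π' : heckeAlgebra (M * p) 2 (↑P.S0 : Set ℕ) →+* T') (πO' : T' →ₐ[P.O] P.O),
      Algebra.adjoin P.O (Set.range π') = ⊤ ∧
      (∀ (hpS : p ∈ P.S0) (hNS : ∀ q : ℕ, q.Prime → q ∣ M * p → q ∈ P.S0)
        (t₀ : P.O ⊗[ℤ] heckeAlgebra (M * p) 2 (↑P.S0 : Set ℕ)),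
        (∀ (a : P.O), ∀ x ∈ (LamNew hpM : AddSubgroup (levelData p (M * p) hpS hNS).Λ),
          (levelData p (M * p) hpS hNS).heckeTensor P.O t₀ (a ⊗ₜ[ℤ] x) = 0) →
        Fermat.Agent.GB.B10.L.GalPkgSO.twO (𝒪 := P.O) π' t₀ = 0) ∧
      (∀ t : heckeAlgebra (M * p) 2 (↑P.S0 : Set ℕ), πO' (π' t) = χ t) ∧
      (∀ t : heckeAlgebra (M * p) 2 (↑P.S0 : Set ℕ),
        (∀ x ∈ (LamNew hpM : AddSubgroup (Lam (M * p))),
          latAct (M * p) (↑P.S0 : Set ℕ) t x = 0) → π' t = 0) := by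
  obtain ⟨T', i1, i2, i3, i4, i5, π', πO', hgen, hπ, hkill⟩ :=
    exists_carrier_of_kills (𝒪 := P.O) (latAct (M * p) (↑P.S0 : Set ℕ)) (LamNew hpM) P.theta χ
      hχ hχkill
  refine ⟨T', i1, i2, i3, i4, i5, π', πO', hgen, ?_, hπ, hkill⟩
  intro hpS hNS t₀ h
  haveI : Module.Flat ℤ P.O := inferInstance
  exact hann_of_kills hpM hpS hNS P.O π' hkill t₀ h

end Fermat.Agent.GE9.PNew.Point

end
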