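/-
GATE-E / RISK-4 R4-H, the seam (S1) ⟶ (S2) (helper32; claims row GE9-PNEW-POINT-SUPPBRIDGE):
**the support statement of PNEW-POINT-α (GM/End vocabulary: `GoodHecke`, `actL`, an ideal of the free
Hecke ring) in the vocabulary of PNEW-POINT-β (`heckeAlgebra (M p) 2 ↑P.S0`, `latAct`, `P.theta`).**

* `PolyOff S := ℤ[X_l : l ∉ S]`, `evOff : PolyOff S →+* heckeAlgebra N 2 S` (onto),
  `toHA : PolyOff S →+* HeckeAlg`; `latAct_evOff : latAct N S (evOff s) = actL N (toHA s)`;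
* `sub_C_eval_mem` : `toHA s − C (s(a)) ∈ 𝔞` when `X_l − C (a l) ∈ 𝔞` for all `l ∉ S`;
* `dvd_of_C_mem` : `C n ∈ 𝔞`, `C p ∈ 𝔞`, `𝔞 ≠ ⊤` ⟹ `p ∣ n`;
* **`hsupp_of_ideal`** : the binder `hsupp` of `PkgNew.exists_pkg_point_new` from an ideal `𝔞` of the
  free Hecke ring with the four properties concluded by helper35's `AnnNew.ann_lamNew_le_of_model`;
* **`hsupp_of_model`**, **`exists_pkg_point_new_of_model`** : plugged (binders `f 𝔪 hf hmax hpm hcong
  hap` of `ann_lamNew_le_of_model`).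
-/
import Fermat.Agent.GE9.PNew.Point.AnnNew
import Fermat.Agent.GE9.PNew.Point.PkgNew
import Fermat.Agent.GB.B4.Twist.TwHom

set_option autoImplicit false
set_option linter.unusedSectionVars false
set_option linter.unusedVariables false
set_option linter.style.haveILetI false

noncomputable section

open scoped MatrixGroups
open CongruenceSubgroup ModularCurve ModularCurve.Period CuspForm ModularFormClass
open WeierstrassCurve WeierstrassCurve.Affine.Point IsLocalRing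
open scoped WeierstrassCurve.Affine

namespace Fermat.Agent.GE9.PNew.Point

open Fermat.Agent.GJ.J2.Lat Fermat.Agent.GJ.J2.LatAct Fermat.Agent.GM.End
open Fermat.Agent.GB.B4.Twist Fermat.Agent.GB.B10.L.ThetaNew
open Fermat.Agent.GB.Setup.SetupPkg

/-! ### polynomials in the Hecke operators off `S` -/

section Poly

variable (N : ℕ) [NeZero N] (S : Set ℕ)

/-- `ℤ[X_l : l ∉ S]`. -/
abbrev PolyOff (S : Set ℕ) : Type := MvPolynomial (PrimesOff S) ℤ

/-- evaluation at the generators of `heckeAlgebra N 2 S`. -/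
def evOff : PolyOff S →+* heckeAlgebra N 2 S :=
  (MvPolynomial.aeval (formsGenS N S) : PolyOff S →ₐ[ℤ] heckeAlgebra N 2 S).toRingHom

theorem evOff_X (l : PrimesOff S) : evOff N S (MvPolynomial.X l) = formsGenS N S l :=
  MvPolynomial.aeval_X _ l

theorem evOff_surjective : Function.Surjective (evOff N S) := by
  intro t
  have ht : t ∈ Subring.closure (Set.range (formsGenS N S)) := by
    rw [TwHom.closure_range_formsGenS]
    exact Subring.mem_top t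
  induction ht using Subring.closure_induction with
  | mem x hx =>
    obtain ⟨l, rfl⟩ := hx
    exact ⟨MvPolynomial.X l, evOff_X N S l⟩
  | zero => exact ⟨0, map_zero _⟩
  | one => exact ⟨1, map_one _⟩
  | add a b _ _ ha hb =>
    obtain ⟨a', rfl⟩ := ha
    obtain ⟨b', rfl⟩ := hb
    exact ⟨a' + b', map_add _ _ _⟩
  | neg a _ ha =>
    obtain ⟨a', rfl⟩ := ha
    exact ⟨-a', map_neg _ _⟩
  | mul a b _ _ ha hb =>
    obtain ⟨a', rfl⟩ := ha
    obtain ⟨b', rfl⟩ := hb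
    exact ⟨a' * b', map_mul _ _ _⟩

/-- `ℤ[X_l : l ∉ S] → HeckeAlg = ℤ[X_l : l prime]`. -/
def toHA : PolyOff S →+* HeckeAlg :=
  (MvPolynomial.rename (fun l : PrimesOff S => l.1) : PolyOff S →ₐ[ℤ] HeckeAlg).toRingHom

theorem toHA_X (l : PrimesOff S) : toHA S (MvPolynomial.X l) = heckeGen l.1 :=
  MvPolynomial.rename_X _ _

/-- **the two lattice actions agree**: `latAct` of the Hecke algebra and `actL` of the free Hecke
ring. -/
theorem latAct_evOff (hNS : ∀ q : ℕ, q.Prime → q ∣ N → q ∈ S) (s : PolyOff S) :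
    latAct N S (evOff N S s) = actL N (toHA S s) := by
  have h : (latAct N S).comp (evOff N S) =
      ((actLHom N : HeckeAlg →ₐ[ℤ] Module.End ℤ (Lam N)) : HeckeAlg →+* _).comp (toHA S) := by
    refine MvPolynomial.ringHom_ext (fun r => ?_) (fun l => ?_)
    · exact RingHom.congr_fun (RingHom.ext_int
        (((latAct N S).comp (evOff N S)).comp MvPolynomial.C)
        ((((actLHom N : HeckeAlg →ₐ[ℤ] Module.End ℤ (Lam N)) : HeckeAlg →+* _).comp
          (toHA S)).comp MvPolynomial.C)) r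
    · have hl : ¬ (l.1 : ℕ) ∣ N := fun hd => l.2 (hNS _ l.1.2 hd)
      rw [RingHom.comp_apply, RingHom.comp_apply, evOff_X, toHA_X, formsGenS_of_not_dvd N S l hl,
        latAct_T]
      refine LinearMap.ext fun x => ?_
      exact (actL_heckeGen N l.1 x).symm
  exact RingHom.congr_fun h s

end Poly

/-! ### evaluation modulo an ideal of the free Hecke ring -/

section Ideal

variable {S : Set ℕ} (𝔞 : Ideal HeckeAlg) (a : PrimesOff S → ℤ)

/-- `toHA s ≡ C (s(a))` modulo an ideal containing the `X_l − C (a l)`. -/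
theorem sub_C_eval_mem (ha : ∀ l : PrimesOff S, heckeGen l.1 - MvPolynomial.C (a l) ∈ 𝔞)
    (s : PolyOff S) : toHA S s - MvPolynomial.C (MvPolynomial.eval a s) ∈ 𝔞 := by
  have h : (Ideal.Quotient.mk 𝔞).comp (toHA S) =
      ((Ideal.Quotient.mk 𝔞).comp MvPolynomial.C).comp (MvPolynomial.eval a) := by
    refine MvPolynomial.ringHom_ext (fun r => ?_) (fun l => ?_)
    · rw [RingHom.comp_apply, RingHom.comp_apply, RingHom.comp_apply, MvPolynomial.eval_C]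
      congr 1
      exact MvPolynomial.rename_C _ r
    · rw [RingHom.comp_apply, RingHom.comp_apply, RingHom.comp_apply, MvPolynomial.eval_X, toHA_X]
      exact Ideal.Quotient.eq.mpr (ha l)
  have h2 := RingHom.congr_fun h s
  rw [RingHom.comp_apply, RingHom.comp_apply, RingHom.comp_apply] at h2
  exact Ideal.Quotient.eq.mp h2

/-- a proper ideal containing `C p` and `C n` forces `p ∣ n`. -/
theorem dvd_of_C_mem {p : ℕ} (hp : p.Prime) (hne : 𝔞 ≠ ⊤)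
    (hpa : (MvPolynomial.C (p : ℤ) : HeckeAlg) ∈ 𝔞) {n : ℤ}
    (hn : (MvPolynomial.C n : HeckeAlg) ∈ 𝔞) : (p : ℤ) ∣ n := by
  by_contra hdvd
  have hcop : IsCoprime (p : ℤ) n := by
    rw [Int.isCoprime_iff_gcd_eq_one]
    have h1 : ¬ p ∣ n.natAbs := fun h => hdvd (Int.natCast_dvd.mpr h)
    exact (Nat.Prime.coprime_iff_not_dvd hp).mpr h1
  obtain ⟨u, v, huv⟩ := hcop
  apply hne
  rw [Ideal.eq_top_iff_one]
  have h1 : (1 : HeckeAlg) = MvPolynomial.C u * MvPolynomial.C (p : ℤ)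
      + MvPolynomial.C v * MvPolynomial.C n := by
    rw [← map_mul, ← map_mul, ← map_add, huv, map_one]
  rw [h1]
  exact 𝔞.add_mem (𝔞.mul_mem_left _ hpa) (𝔞.mul_mem_left _ hn)

end Ideal

/-! ### the bridge -/

variable {p : ℕ} [hpF : Fact p.Prime] {W : WeierstrassCurve ℤ}
  {hcard₁ : Nat.card (Submodule.torsionBy ℤ
    ((W.map (Int.castRingHom ℚ))⁄(AlgebraicClosure ℚ)).Point p) = p ^ 2}
  {hker : GaloisFactorsThroughFiniteLevel
    (galoisRepModuleEnd (K := AlgebraicClosure ℚ) ℚ (W.map (Int.castRingHom ℚ)) p)}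
  {M A : ℕ}

/-- **the binder `hsupp` of `exists_pkg_point_new` from an ideal of the free Hecke ring** with the
four properties concluded by `AnnNew.ann_lamNew_le_of_model`. -/
theorem hsupp_of_ideal [NeZero M] [NeZero (M * p)] (hpM : ¬ p ∣ M)
    (P₀ : Pkg p W hcard₁ hker (M * p) A) (𝔞 : Ideal HeckeAlg)
    (h1 : ∀ s : GoodHecke M p,
      (∀ z ∈ LamNew hpM, actL (M * p) (goodIncl M p s) z = 0) → goodIncl M p s ∈ 𝔞)
    (hne : 𝔞 ≠ ⊤) (hpa : (MvPolynomial.C (p : ℤ) : HeckeAlg) ∈ 𝔞)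
    (h4 : ∀ (ℓ : ℕ) (hℓ : ℓ.Prime), W.IsGoodPrimeFor ℓ → ¬ ℓ ∣ M → ℓ ≠ p →
      heckeGen ⟨ℓ, hℓ⟩ - MvPolynomial.C (W.apOfModel ℓ) ∈ 𝔞) :
    ∀ t : heckeAlgebra (M * p) 2 (↑P₀.S0 : Set ℕ),
      (∀ x ∈ (LamNew hpM : AddSubgroup (Lam (M * p))),
        latAct (M * p) (↑P₀.S0 : Set ℕ) t x = 0) → P₀.theta t = 0 := by
  intro t ht
  have hp : p.Prime := hpF.out
  obtain ⟨s, rfl⟩ := evOff_surjective (M * p) (↑P₀.S0 : Set ℕ) t
  -- the primes off `S0`
  have hoffN : ∀ l : PrimesOff (↑P₀.S0 : Set ℕ), ¬ (l.1 : ℕ) ∣ M * p :=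
    fun l hd => l.2 (P₀.hMS0 _ l.1.2 hd)
  have hoffM : ∀ l : PrimesOff (↑P₀.S0 : Set ℕ), ¬ (l.1 : ℕ) ∣ M :=
    fun l hd => hoffN l (Dvd.dvd.mul_right hd p)
  have hoffp : ∀ l : PrimesOff (↑P₀.S0 : Set ℕ), (l.1 : ℕ) ≠ p :=
    fun l h => l.2 (by rw [h]; exact P₀.hpS0)
  have hoffg : ∀ l : PrimesOff (↑P₀.S0 : Set ℕ), W.IsGoodPrimeFor (l.1 : ℕ) :=
    fun l => by
      by_contra hbad
      exact l.2 (P₀.hWS0 _ l.1.2 hbad)
  -- `toHA s` comes from `GoodHecke M p`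
  let s' : GoodHecke M p := MvPolynomial.rename
    (fun l : PrimesOff (↑P₀.S0 : Set ℕ) =>
      (⟨l.1, hoffN l⟩ : {l : Nat.Primes // ¬ (l : ℕ) ∣ M * p})) s
  have hs' : goodIncl M p s' = toHA (↑P₀.S0 : Set ℕ) s := by
    show MvPolynomial.rename _ (MvPolynomial.rename _ s) = MvPolynomial.rename _ s
    rw [MvPolynomial.rename_rename]
    rfl
  -- it kills the `p`-new lattice, hence lies in `𝔞`
  have hmem : toHA (↑P₀.S0 : Set ℕ) s ∈ 𝔞 := by
    rw [← hs']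
    refine h1 s' fun z hz => ?_
    rw [hs', ← latAct_evOff (M * p) (↑P₀.S0 : Set ℕ) P₀.hMS0 s]
    exact ht z hz
  -- so its value at the `a_ℓ(W)` is divisible by `p`
  have ha : ∀ l : PrimesOff (↑P₀.S0 : Set ℕ),
      heckeGen l.1 - MvPolynomial.C (W.apOfModel (l.1 : ℕ)) ∈ 𝔞 :=
    fun l => h4 (l.1 : ℕ) l.1.2 (hoffg l) (hoffM l) (hoffp l)
  have hC : (MvPolynomial.C (MvPolynomial.eval (fun l : PrimesOff (↑P₀.S0 : Set ℕ) =>
      W.apOfModel (l.1 : ℕ)) s) : HeckeAlg) ∈ 𝔞 := by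
    have h := sub_C_eval_mem 𝔞 (fun l : PrimesOff (↑P₀.S0 : Set ℕ) => W.apOfModel (l.1 : ℕ)) ha s
    have h' := 𝔞.sub_mem hmem h
    rwa [sub_sub_cancel] at h'
  obtain ⟨c, hc⟩ := dvd_of_C_mem 𝔞 hp hne hpa hC
  -- `P₀.theta (evOff s)` is that value in `k`
  have hθ : P₀.theta.comp (evOff (M * p) (↑P₀.S0 : Set ℕ)) =
      (Int.castRingHom P₀.k).comp (MvPolynomial.eval (fun l : PrimesOff (↑P₀.S0 : Set ℕ) =>
        W.apOfModel (l.1 : ℕ))) := by
    refine MvPolynomial.ringHom_ext (fun r => ?_) (fun l => ?_)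
    · exact RingHom.congr_fun (RingHom.ext_int
        ((P₀.theta.comp (evOff (M * p) (↑P₀.S0 : Set ℕ))).comp MvPolynomial.C)
        (((Int.castRingHom P₀.k).comp (MvPolynomial.eval
          (fun l : PrimesOff (↑P₀.S0 : Set ℕ) => W.apOfModel (l.1 : ℕ)))).comp
            MvPolynomial.C)) r
    · rw [RingHom.comp_apply, RingHom.comp_apply, evOff_X, MvPolynomial.eval_X,
        formsGenS_of_not_dvd (M * p) (↑P₀.S0 : Set ℕ) l (hoffN l), P₀.theta_T]
      rfl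
  have hθs := RingHom.congr_fun hθ s
  rw [RingHom.comp_apply, RingHom.comp_apply] at hθs
  rw [hθs, hc]
  -- `p = 0` in `k`
  have hpk : ((p : ℤ) : P₀.k) = 0 := by
    have h0 : residue P₀.O (p : P₀.O) = 0 := (residue_eq_zero_iff _).mpr P₀.hpO
    rw [map_natCast] at h0
    exact_mod_cast h0
  rw [eq_intCast, Int.cast_mul, hpk, zero_mul]

/-- **(S1) ⟶ `hsupp`**: the binder `hsupp` of `exists_pkg_point_new` from a normalized eigenform
`f` of level `M` congruent to `W` modulo `𝔪 ∣ p` with `a_p(f)² ≡ 1 (mod 𝔪)` (binders of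
helper35's `AnnNew.ann_lamNew_le_of_model`). -/
theorem hsupp_of_model [NeZero M] [NeZero (M * p)] (hpM : ¬ p ∣ M)
    (P₀ : Pkg p W hcard₁ hker (M * p) A)
    (f : CuspForm (CongruenceSubgroup.Gamma0 M) 2) (𝔪 : Ideal (integralClosure ℤ ℂ))
    (hf : f.IsNormalizedEigenform) (hmax : 𝔪.IsMaximal) (hpm : (p : integralClosure ℤ ℂ) ∈ 𝔪)
    (hcong : ∀ ℓ : ℕ, ℓ.Prime → W.IsGoodPrimeFor ℓ → ¬ ℓ ∣ M → ℓ ≠ p →
      ∃ a : integralClosure ℤ ℂ, (a : ℂ) = ModularFormClass.qCoeff f ℓ ∧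
        a - ((W.apOfModel ℓ : ℤ) : integralClosure ℤ ℂ) ∈ 𝔪)
    (hap : ∃ a : integralClosure ℤ ℂ, (a : ℂ) = ModularFormClass.qCoeff f p ∧ a ^ 2 - 1 ∈ 𝔪) :
    ∀ t : heckeAlgebra (M * p) 2 (↑P₀.S0 : Set ℕ),
      (∀ x ∈ (LamNew hpM : AddSubgroup (Lam (M * p))),
        latAct (M * p) (↑P₀.S0 : Set ℕ) t x = 0) → P₀.theta t = 0 := by
  obtain ⟨h1, h2, h3, h4⟩ := Fermat.Agent.GE9.PNew.Point.AnnNew.ann_lamNew_le_of_model W P₀.hΔ
    P₀.hp2 hpM P₀.hirr f 𝔪 hf hmax hpm hcong hap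
  exact hsupp_of_ideal hpM P₀ _ h1 h2.ne_top h3 h4

open TensorProduct Fermat.Agent.GB.B10.KumLevelHecke in
/-- **PNEW-POINT (S1) + (S2)**: the bundle of level `M p` re-based on a coefficient ring with a
`p`-NEW modular point, from a normalized eigenform `f` of level `M` congruent to `W` modulo `𝔪 ∣ p`
with `a_p(f)² ≡ 1 (mod 𝔪)`. -/
theorem exists_pkg_point_new_of_model [NeZero M] [NeZero (M * p)] (hpM : ¬ p ∣ M)
    (P₀ : Pkg p W hcard₁ hker (M * p) A)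
    (f : CuspForm (CongruenceSubgroup.Gamma0 M) 2) (𝔪 : Ideal (integralClosure ℤ ℂ))
    (hf : f.IsNormalizedEigenform) (hmax : 𝔪.IsMaximal) (hpm : (p : integralClosure ℤ ℂ) ∈ 𝔪)
    (hcong : ∀ ℓ : ℕ, ℓ.Prime → W.IsGoodPrimeFor ℓ → ¬ ℓ ∣ M → ℓ ≠ p →
      ∃ a : integralClosure ℤ ℂ, (a : ℂ) = ModularFormClass.qCoeff f ℓ ∧
        a - ((W.apOfModel ℓ : ℤ) : integralClosure ℤ ℂ) ∈ 𝔪)
    (hap : ∃ a : integralClosure ℤ ℂ, (a : ℂ) = ModularFormClass.qCoeff f p ∧ a ^ 2 - 1 ∈ 𝔪) :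
    ∃ (P : Pkg p W hcard₁ hker (M * p) A) (ι : P₀.O →+* P.O)
      (χ : heckeAlgebra (M * p) 2 (↑P.S0 : Set ℕ) →+* P.O),
      P.D = P₀.D ∧ IsLocalHom ι ∧ Function.Injective ι ∧
      (∀ t : heckeAlgebra (M * p) 2 (↑P.S0 : Set ℕ), residue P.O (χ t) = P.theta t) ∧
      (∀ t : heckeAlgebra (M * p) 2 (↑P.S0 : Set ℕ),
        (∀ x ∈ (LamNew hpM : AddSubgroup (Lam (M * p))),
          latAct (M * p) (↑P.S0 : Set ℕ) t x = 0) → χ t = 0) ∧
      ∀ (hpS : p ∈ P.S0) (hNS : ∀ q : ℕ, q.Prime → q ∣ M * p → q ∈ P.S0)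
        (t₀ : P.O ⊗[ℤ] heckeAlgebra (M * p) 2 (↑P.S0 : Set ℕ)),
        (∀ (a : P.O), ∀ x ∈ (LamNew hpM : AddSubgroup (levelData p (M * p) hpS hNS).Λ),
          (levelData p (M * p) hpS hNS).heckeTensor P.O t₀ (a ⊗ₜ[ℤ] x) = 0) →
        Fermat.Agent.GB.B10.L.GalPkgSO.twO (𝒪 := P.O) χ t₀ = 0 :=
  exists_pkg_point_new hpM P₀ (hsupp_of_model hpM P₀ f 𝔪 hf hmax hpm hcong hap)

end Fermat.Agent.GE9.PNew.Point

end
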